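import Fermat.Agent.GAL.PC.GlueRaw
import Fermat.Agent.GAL.Final
import Fermat.Agent.S36.Top.ForTop35

/-!
# SS / TOP-35, leaves [T35-RANK], [T35-CARDJ], [T35-XISURJ], [T35-OLDKILL]

A polynomial in the `T_ℓ` which vanishes on `S₂(Γ₀(N))` kills the `p`-power torsion of `J₀(N)`.

Proof by counting: the Kummer map `Ξ : Hom(perLat N, ℤ/p^k) → J₀(N)[p^k]` of project GAL is
injective and Hecke equivariant; `perLat N` has rank `≥ 2 g` and `# J₀(N)[p^k] = p ^ (2 g k)`.
So `Ξ` is onto.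
-/

set_option autoImplicit false

noncomputable section

open AlgebraicCurve ModularCurve CongruenceSubgroup

namespace Fermat.Agent.SS

open Fermat.Agent.GAL Fermat.Agent.GAL.PC Fermat.Agent.GAL.EigenChar

local notation "Qbar" => AlgebraicClosure ℚ
local notation "GQ" => (AlgebraicClosure ℚ ≃ₐ[ℚ] AlgebraicClosure ℚ)

variable (N : ℕ) [NeZero N]

/-- [T35-RANK] the period lattice has rank at least `2 g` (it spans `S₂^∨` over `ℝ`: otherwise
there is `f ≠ 0` all of whose periods have real part `0`; `S21/InjCore`). -/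
theorem two_mul_finrank_le_finrank_perLat :
    2 * Module.finrank ℂ (CuspForm (Gamma0 N) 2) ≤ Module.finrank ℤ (perLat N) :=
  S36.Top.two_mul_finrank_le_finrank_perLat N

/-- [T35-CARDJ] the number of `p ^ k`-torsion points of `J₀(N)` (S27 + S24 + S20). -/
theorem card_torsion_JZero (p : ℕ) [Fact p.Prime] (k : ℕ) :
    Nat.card {x : JZero N // p ^ k • x = 0} =
      p ^ (2 * Module.finrank ℂ (CuspForm (Gamma0 N) 2) * k) :=
  S36.Top.card_torsion_JZero_pow N p k

/-- [T35-CARDHOM] -/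
theorem card_addHom_perLat (m : ℕ) [NeZero m] :
    Nat.card (perLat N →+ ZMod m) = m ^ Module.finrank ℤ (perLat N) :=
  S36.Top.card_addHom_perLat N m

variable {N}

/-- [T35-XISURJ] the Kummer map is onto the `p ^ k`-torsion. -/
theorem exists_Xi_eq {p : ℕ} (hp : p.Prime) (k : ℕ) (κ : GoodHom N (p ^ k) →+ JZero N)
    (hκ : Function.Injective κ) (x : JZero N) (hx : p ^ k • x = 0) :
    ∃ ψ : perLat N →+ ZMod (p ^ k), ((Xi κ k rfl ψ : ptors (JZero N) p) : JZero N) = x :=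
  S36.Top.exists_coe_Xi_eq hp k κ hκ x hx

/-- [T35-OLDKILL] -/
theorem oldKill {p : ℕ} (hp : p.Prime) (S : Set ℕ)
    (hNS : ∀ ℓ : ℕ, ℓ.Prime → ℓ ∉ S → ¬ ℓ ∣ N)
    (f : MvPolynomial ℕ ℤ →+* Module.End ℤ (ptors (JZero N) p))
    (hf : ∀ ℓ, f (MvPolynomial.X ℓ) = Tp N p S ℓ)
    (t : MvPolynomial ℕ ℤ) (ht : MvPolynomial.aeval (heckeT N S) t = 0)
    (x : ptors (JZero N) p) : f t x = 0 :=
  S36.Top.oldKill hp S hNS f hf t ht x

end Fermat.Agent.SS
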