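import Fermat.Agent.GAL.Final
import Fermat.Agent.RR.Hurwitz
import Fermat.Agent.SS.Old
import Fermat.Agent.Cheb.Final
import Fermat.Agent.S54.Frobenius
import Fermat.Agent.GAL.EigenChar.Eigen

/-!
# SS / TOP-35, leaves [T35-SMO], [T35-OLDS]

Strong multiplicity one at the good primes (via pseudo-characters) and the existence of a Hecke
operator away from `S` which kills the level `M / q` but not the newform `g`.
-/

set_option autoImplicit false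

noncomputable section

open ModularCurve CongruenceSubgroup ModularFormClass

namespace Fermat.Agent.SS

open Fermat.Agent.GAL Fermat.Agent.GAL.PC

local notation "Qbar" => AlgebraicClosure ℚ
local notation "GQ" => (AlgebraicClosure ℚ ≃ₐ[ℚ] AlgebraicClosure ℚ)

/-- the interfaces of project GAL, unconditionally -/
theorem es_all (N : ℕ) [NeZero N] (p : ℕ) : ESUnram N p ∧ ESQuad N p :=
  Final.es (fun _ _ _ _ _ _ _ _ _ _ _ _ h1 h2 => Fermat.Agent.RR.rhRel h1 h2) N p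

theorem heckePC_all {N : ℕ} [NeZero N] {p : ℕ} (hp : p.Prime) (S : Finset ℕ) (hpS : p ∈ S)
    (hNS : ∀ q : ℕ, q.Prime → q ∣ N → q ∈ S) : HeckePC N (↑S : Set ℕ) p :=
  heckePC_of_es_sup hp S hpS hNS (es_all N p)
    (fun k => Final.sup N (p ^ k) (pow_ne_zero _ hp.ne_zero))

theorem int_eq_zero_of_forall_pow_dvd {p : ℕ} (hp : p.Prime) (c : ℤ)
    (h : ∀ n : ℕ, (p : ℤ) ^ n ∣ c) : c = 0 := by
  by_contra hc
  have h1 : p ^ c.natAbs ∣ c.natAbs := by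
    have := Int.natAbs_dvd_natAbs.mpr (h c.natAbs)
    simpa [Int.natAbs_pow] using this
  have h2 := Nat.le_of_dvd (Int.natAbs_pos.mpr hc) h1
  exact absurd h2 (not_le.mpr (Nat.lt_pow_self hp.one_lt))

/-- [T35-ZBAR] an algebraic integer divisible by all powers of `p` is zero. -/
theorem eq_zero_of_forall_pow_dvd {p : ℕ} (hp : p.Prime) (x : integralClosure ℤ ℂ)
    (h : ∀ n : ℕ, (p : integralClosure ℤ ℂ) ^ n ∣ x) : x = 0 := by
  by_contra hx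
  have hint : IsIntegral ℤ (x : ℂ) := x.2
  have hx' : (x : ℂ) ≠ 0 := fun h0 => hx (Subtype.ext h0)
  set P := minpoly ℤ (x : ℂ) with hP
  have hc : P.coeff 0 ≠ 0 := by
    have h1 := minpoly.coeff_zero_ne_zero (A := ℚ) hint.tower_top hx'
    rw [minpoly.isIntegrallyClosed_eq_field_fractions' ℚ hint, Polynomial.coeff_map] at h1
    intro h0
    rw [← hP, h0] at h1
    simp at h1
  have hdvd : x ∣ ((P.coeff 0 : ℤ) : integralClosure ℤ ℂ) := by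
    have h0 : Polynomial.aeval (x : ℂ) P = 0 := minpoly.aeval ℤ (x : ℂ)
    have h1 : Polynomial.aeval x P = 0 := by
      apply Subtype.ext
      rw [← Subalgebra.aeval_coe, h0]; rfl
    rw [← Polynomial.divX_mul_X_add P] at h1
    simp only [map_add, map_mul, Polynomial.aeval_X, Polynomial.aeval_C] at h1
    refine ⟨- Polynomial.aeval x P.divX, ?_⟩
    have h2 : ((P.coeff 0 : ℤ) : integralClosure ℤ ℂ) = algebraMap ℤ _ (P.coeff 0) := by simp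
    rw [h2]
    linear_combination h1
  apply hc
  apply int_eq_zero_of_forall_pow_dvd hp
  intro n
  obtain ⟨y, hy⟩ := (h n).trans hdvd
  have hp0 : ((p : ℚ)) ^ n ≠ 0 := pow_ne_zero _ (by exact_mod_cast hp.ne_zero)
  have hy' : (y : ℂ) = (((P.coeff 0 : ℤ) : ℚ) / (p : ℚ) ^ n : ℚ) := by
    have := congrArg (Subtype.val) hy
    push_cast at this ⊢
    have hp0' : ((p : ℂ)) ^ n ≠ 0 := pow_ne_zero _ (by exact_mod_cast hp.ne_zero)
    rw [eq_div_iff hp0']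
    rw [this]; ring
  have hyint : IsIntegral ℤ (((P.coeff 0 : ℤ) : ℚ) / (p : ℚ) ^ n : ℚ) := by
    have h3 : IsIntegral ℤ (algebraMap ℚ ℂ (((P.coeff 0 : ℤ) : ℚ) / (p : ℚ) ^ n : ℚ)) := by
      have : algebraMap ℚ ℂ (((P.coeff 0 : ℤ) : ℚ) / (p : ℚ) ^ n : ℚ) = (y : ℂ) := by
        rw [hy']; rfl
      rw [this]
      exact y.2
    exact (isIntegral_algebraMap_iff (algebraMap ℚ ℂ).injective).mp h3
  obtain ⟨z, hz⟩ := IsIntegrallyClosed.algebraMap_eq_of_integral hyint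
  refine ⟨z, ?_⟩
  have h4 : ((P.coeff 0 : ℤ) : ℚ) = (p : ℚ) ^ n * (z : ℚ) := by
    have : (z : ℚ) = ((P.coeff 0 : ℤ) : ℚ) / (p : ℚ) ^ n := by simpa using hz
    rw [this]; field_simp
  exact_mod_cast h4

/-- [T35-EIGCHAR] the eigencharacter of a normalised eigenform, with values in the algebraic
integers. -/
theorem exists_eigenChar {N : ℕ} [NeZero N] {f : CuspForm (Gamma0 N) 2}
    (hf : f.IsNormalizedEigenform) (S : Set ℕ) :
    ∃ χ : CuspForm.heckeAlgebra N 2 S →+* integralClosure ℤ ℂ,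
      ∀ (ℓ : ℕ) (hℓ : ℓ.Prime) (hℓN : ¬ ℓ ∣ N) (hℓS : ℓ ∉ S),
        ((χ (CuspForm.heckeAlgebra.T hℓ hℓN hℓS) : integralClosure ℤ ℂ) : ℂ) = qCoeff f ℓ :=
  ⟨EigenChar.eigenHomInt hf S, fun ℓ hℓ hℓN hℓS => by
    rw [EigenChar.coe_eigenHomInt, EigenChar.eigenHom_T]⟩

theorem isCyc_mono {R : Type*} [CommRing R] {S S' : Set ℕ} (hS : S ⊆ S') {c : GQ →* R}
    (h : IsCyc S c) : IsCyc S' c where
  lvl := h.lvl
  frob := fun ℓ hℓ hS' A hA σ hσ => h.frob ℓ hℓ (fun h' => hS' (hS h')) A hA σ hσ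

theorem isPrePC_mono_congr {R : Type*} [CommRing R] {S S' : Set ℕ} (hS : S ⊆ S')
    {a a' : ℕ → R} {t : GQ → R} {c : GQ →* R} (h : IsPrePC S a t c)
    (ha : ∀ ℓ : ℕ, ℓ.Prime → ℓ ∉ S' → a ℓ = a' ℓ) : IsPrePC S' a' t c where
  cyc := isCyc_mono hS h.cyc
  lvl := h.lvl
  one := h.one
  mul := h.mul
  frob := fun ℓ hℓ hS' A hA σ hσ => by
    rw [h.frob ℓ hℓ (fun h' => hS' (hS h')) A hA σ hσ, ha ℓ hℓ hS']

/-- the abstract form of strong multiplicity one: two ring homomorphisms of Hecke algebras of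
levels `M₁`, `M₂` into the ring of algebraic integers which agree on almost all `T_ℓ` agree on
all of them. -/
theorem smo_abs {M₁ M₂ : ℕ} [NeZero M₁] [NeZero M₂] {p : ℕ} (hp : p.Prime) (S₀ S : Finset ℕ)
    (H₁ : HeckePC M₁ (↑S₀ : Set ℕ) p) (H₂ : HeckePC M₂ (↑S₀ : Set ℕ) p)
    (χ₁ : CuspForm.heckeAlgebra M₁ 2 (↑S₀ : Set ℕ) →+* integralClosure ℤ ℂ)
    (χ₂ : CuspForm.heckeAlgebra M₂ 2 (↑S₀ : Set ℕ) →+* integralClosure ℤ ℂ)
    (h : ∀ ℓ : ℕ, ℓ.Prime → ℓ ∉ S₀ → ℓ ∉ S →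
      χ₁ (heckeT M₁ (↑S₀ : Set ℕ) ℓ) = χ₂ (heckeT M₂ (↑S₀ : Set ℕ) ℓ))
    (ℓ₀ : ℕ) (hℓ₀ : ℓ₀.Prime) (h0 : ℓ₀ ∉ S₀) :
    χ₁ (heckeT M₁ (↑S₀ : Set ℕ) ℓ₀) = χ₂ (heckeT M₂ (↑S₀ : Set ℕ) ℓ₀) := by
  rw [← sub_eq_zero]
  apply eq_zero_of_forall_pow_dvd hp
  intro n
  obtain ⟨t₁, c₁, hPC₁, -⟩ := H₁ n
  obtain ⟨t₂, c₂, hPC₂, -⟩ := H₂ n
  set J : Ideal (integralClosure ℤ ℂ) := Ideal.span {(p : integralClosure ℤ ℂ) ^ n} with hJ
  have hle₁ : Ideal.span {((p : CuspForm.heckeAlgebra M₁ 2 (↑S₀ : Set ℕ))) ^ n} ≤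
      J.comap χ₁ := by
    rw [Ideal.span_singleton_le_iff_mem, Ideal.mem_comap, map_pow, map_natCast]
    exact Ideal.mem_span_singleton_self _
  have hle₂ : Ideal.span {((p : CuspForm.heckeAlgebra M₂ 2 (↑S₀ : Set ℕ))) ^ n} ≤
      J.comap χ₂ := by
    rw [Ideal.span_singleton_le_iff_mem, Ideal.mem_comap, map_pow, map_natCast]
    exact Ideal.mem_span_singleton_self _
  have hsub : (↑S₀ : Set ℕ) ⊆ (↑(S₀ ∪ S) : Set ℕ) := by
    intro x hx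
    simp only [Finset.coe_union, Set.mem_union]
    exact Or.inl hx
  have P₁ := isPrePC_mono_congr hsub (hPC₁.toIsPrePC.map (Ideal.quotientMap J χ₁ hle₁))
    (a' := fun ℓ => Ideal.Quotient.mk J (χ₁ (heckeT M₁ (↑S₀ : Set ℕ) ℓ)))
    (fun ℓ _ _ => by simp only [Ideal.quotientMap_mk])
  have P₂ := isPrePC_mono_congr hsub (hPC₂.toIsPrePC.map (Ideal.quotientMap J χ₂ hle₂))
    (a' := fun ℓ => Ideal.Quotient.mk J (χ₁ (heckeT M₁ (↑S₀ : Set ℕ) ℓ)))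
    (fun ℓ hℓ hS' => by
      simp only [Finset.coe_union, Set.mem_union, Finset.mem_coe, not_or] at hS'
      simp only [Ideal.quotientMap_mk]
      rw [h ℓ hℓ hS'.1 hS'.2])
  have huniq := IsPrePC.unique Fermat.Agent.Cheb.preludeSpec P₁ P₂
  obtain ⟨A, hA⟩ := Fermat.Agent.S54.exists_liesOverPrime hℓ₀
  obtain ⟨σ, hσ⟩ := Fermat.Agent.S54.exists_isFrobeniusAt_of_liesOverPrime hℓ₀ A hA
  have h1 := congrFun huniq σ
  rw [hPC₁.frob ℓ₀ hℓ₀ (by simpa using h0) A hA σ hσ,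
    hPC₂.frob ℓ₀ hℓ₀ (by simpa using h0) A hA σ hσ, Ideal.quotientMap_mk, Ideal.quotientMap_mk,
    Ideal.Quotient.eq, hJ, Ideal.mem_span_singleton] at h1
  exact h1

/-- [T35-SMO] **strong multiplicity one at the good primes**. -/
theorem smo {M₁ M₂ : ℕ} [NeZero M₁] [NeZero M₂] {f₁ : CuspForm (Gamma0 M₁) 2}
    {f₂ : CuspForm (Gamma0 M₂) 2} (h₁ : f₁.IsNormalizedEigenform) (h₂ : f₂.IsNormalizedEigenform)
    (S : Finset ℕ) (h : ∀ ℓ : ℕ, ℓ.Prime → ℓ ∉ S → qCoeff f₁ ℓ = qCoeff f₂ ℓ)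
    (ℓ₀ : ℕ) (hℓ₀ : ℓ₀.Prime) (h01 : ¬ ℓ₀ ∣ M₁) (h02 : ¬ ℓ₀ ∣ M₂) :
    qCoeff f₁ ℓ₀ = qCoeff f₂ ℓ₀ := by
  obtain ⟨p, hp, hpℓ⟩ : ∃ p : ℕ, p.Prime ∧ p ≠ ℓ₀ := by
    by_cases h2 : ℓ₀ = 2
    · exact ⟨3, Nat.prime_three, by omega⟩
    · exact ⟨2, Nat.prime_two, fun h' => h2 h'.symm⟩
  set S₀ : Finset ℕ := insert p (M₁.primeFactors ∪ M₂.primeFactors) with hS₀
  have hmem : ∀ ℓ : ℕ, ℓ.Prime → ℓ ∉ S₀ → ¬ ℓ ∣ M₁ ∧ ¬ ℓ ∣ M₂ := by
    intro ℓ hℓ hℓS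
    simp only [hS₀, Finset.mem_insert, Finset.mem_union, Nat.mem_primeFactors, not_or] at hℓS
    exact ⟨fun hd => hℓS.2.1 ⟨hℓ, hd, NeZero.ne M₁⟩, fun hd => hℓS.2.2 ⟨hℓ, hd, NeZero.ne M₂⟩⟩
  have h0 : ℓ₀ ∉ S₀ := by
    simp only [hS₀, Finset.mem_insert, Finset.mem_union, Nat.mem_primeFactors, not_or]
    exact ⟨fun h' => hpℓ h'.symm, fun h' => h01 h'.2.1, fun h' => h02 h'.2.1⟩
  have H₁ : HeckePC M₁ (↑S₀ : Set ℕ) p := heckePC_all hp S₀ (Finset.mem_insert_self _ _)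
    (fun q hq hqM => Finset.mem_insert_of_mem (Finset.mem_union_left _
      (Nat.mem_primeFactors.mpr ⟨hq, hqM, NeZero.ne M₁⟩)))
  have H₂ : HeckePC M₂ (↑S₀ : Set ℕ) p := heckePC_all hp S₀ (Finset.mem_insert_self _ _)
    (fun q hq hqM => Finset.mem_insert_of_mem (Finset.mem_union_right _
      (Nat.mem_primeFactors.mpr ⟨hq, hqM, NeZero.ne M₂⟩)))
  obtain ⟨χ₁, hχ₁⟩ := exists_eigenChar h₁ (↑S₀ : Set ℕ)
  obtain ⟨χ₂, hχ₂⟩ := exists_eigenChar h₂ (↑S₀ : Set ℕ)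
  have key := smo_abs hp S₀ S H₁ H₂ χ₁ χ₂ (fun ℓ hℓ hℓS₀ hℓS => by
    have hc : ℓ ∉ (↑S₀ : Set ℕ) := by simpa using hℓS₀
    rw [heckeT_eq hℓ (hmem ℓ hℓ hℓS₀).1 hc, heckeT_eq hℓ (hmem ℓ hℓ hℓS₀).2 hc]
    apply Subtype.ext
    rw [hχ₁, hχ₂, h ℓ hℓ hℓS]) ℓ₀ hℓ₀ h0
  have hc : ℓ₀ ∉ (↑S₀ : Set ℕ) := by simpa using h0
  rw [heckeT_eq hℓ₀ h01 hc, heckeT_eq hℓ₀ h02 hc] at key
  rw [← hχ₁ ℓ₀ hℓ₀ h01 hc, ← hχ₂ ℓ₀ hℓ₀ h02 hc, key]

open Fermat.Agent.S49 in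
/-- every character of a subring of the full Hecke algebra is the system of eigenvalues of a
normalised eigenform. -/
theorem exists_eigenform_of_injective {N : ℕ} [NeZero N] {R : Type*} [CommRing R]
    (κ : R →+* CuspForm.heckeAlgebra N 2 ∅) (hκ : Function.Injective κ) (χ : R →+* ℂ) :
    ∃ f : CuspForm (Gamma0 N) 2, f.IsNormalizedEigenform ∧
      ∀ (r : R) (ℓ : ℕ) (hℓ : ℓ.Prime) (hℓN : ¬ ℓ ∣ N),
        κ r = CuspForm.heckeAlgebra.T hℓ hℓN (Set.notMem_empty _) → qCoeff f ℓ = χ r := by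
  classical
  have hfinT : Module.Finite ℤ (CuspForm.heckeAlgebra N 2 ∅) := Fermat.Agent.S22.result N 2 ∅
  have hfinV : FiniteDimensional ℂ (CuspForm (Gamma0 N) 2) :=
    Fermat.Agent.S23.finiteDimensional_cuspForm N 2
  let φ : R →+* Module.End ℂ (CuspForm (Gamma0 N) 2) :=
    (CuspForm.heckeAlgebra N 2 ∅).val.toRingHom.comp κ
  have hφ : Function.Injective φ := Subtype.val_injective.comp hκ
  have hfinR : Module.Finite ℤ R := Module.Finite.of_injective κ.toIntAlgHom.toLinearMap hκ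
  have htf : Module.IsTorsionFree ℤ R :=
    Function.Injective.moduleIsTorsionFree κ hκ (fun n x => map_zsmul κ n x)
  obtain ⟨w₀, hw₀, hw₀eig⟩ := exists_eigenvector_of_ringHom φ hφ (coeffL N)
    (fun j : CuspForm.intLattice N 2 => (j : CuspForm (Gamma0 N) 2))
    (fun v hv => eq_zero_of_qCoeff v hv)
    (by
      have h := Fermat.Agent.S23.result N
      unfold CuspForm.HasIntegralStructure at h
      convert h using 2
      exact Subtype.range_coe)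
    (fun t i j => (mem_intLattice_iff _).1
      (CuspForm.mem_intLattice_of_mem_heckeAlgebra (by norm_num) (κ t).2 j.2) i) χ
  -- the eigenspace
  let W : Submodule ℂ (CuspForm (Gamma0 N) 2) :=
    { carrier := {v | ∀ r : R, φ r v = χ r • v}
      zero_mem' := fun ℓ => by simp
      add_mem' := fun {x y} hx hy ℓ => by rw [map_add, hx ℓ, hy ℓ, smul_add]
      smul_mem' := fun c x hx ℓ => by rw [map_smul, hx ℓ, smul_comm] }
  have hstab : ∀ (s : CuspForm.heckeAlgebra N 2 ∅), ∀ v ∈ W,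
      (s : Module.End ℂ (CuspForm (Gamma0 N) 2)) v ∈ W := by
    intro s v hv r
    have hc : φ r * s = s * φ r := congrArg Subtype.val (mul_comm (κ r) s)
    have h1 := LinearMap.congr_fun hc v
    rw [Module.End.mul_apply, Module.End.mul_apply, hv r, map_smul] at h1
    exact h1
  let φW : CuspForm.heckeAlgebra N 2 ∅ →+* Module.End ℂ W :=
    { toFun := fun s => (s : Module.End ℂ (CuspForm (Gamma0 N) 2)).restrict (hstab s)
      map_one' := by ext; rfl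
      map_mul' := fun s s' => by ext; rfl
      map_zero' := by ext; rfl
      map_add' := fun s s' => by ext; rfl }
  obtain ⟨w, μ, hw, hweig, -⟩ := exists_common_eigenvector φW (⟨w₀, hw₀eig⟩ : W)
    (fun h => hw₀ (congrArg Subtype.val h))
  have hw' : (w : CuspForm (Gamma0 N) 2) ≠ 0 := fun h => hw (Subtype.ext h)
  have hweig' : ∀ t : CuspForm.heckeAlgebra N 2 ∅,
      (t : Module.End ℂ (CuspForm (Gamma0 N) 2)) (w : CuspForm (Gamma0 N) 2)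
        = μ t • (w : CuspForm (Gamma0 N) 2) := fun t => congrArg Subtype.val (hweig t)
  obtain ⟨f, hf, hfT⟩ := exists_normalizedEigenform_of_eigenvector (w : CuspForm (Gamma0 N) 2) hw' μ
    hweig'
  refine ⟨f, hf, fun r ℓ hℓ hℓN hr => ?_⟩
  rw [hfT ℓ hℓ hℓN, ← hr]
  have h1 := hweig' (κ r)
  have h2 : φ r (w : CuspForm (Gamma0 N) 2) = χ r • (w : CuspForm (Gamma0 N) 2) := w.2 r
  have h3 : μ (κ r) • (w : CuspForm (Gamma0 N) 2) = χ r • (w : CuspForm (Gamma0 N) 2) :=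
    h1.symm.trans h2
  exact smul_left_injective ℂ hw' h3

/-- the inclusion of the Hecke algebra away from `S` in the full Hecke algebra -/
def heckeIncl (N : ℕ) [NeZero N] (S : Set ℕ) :
    CuspForm.heckeAlgebra N 2 S →+* CuspForm.heckeAlgebra N 2 ∅ :=
  (Subalgebra.inclusion (CuspForm.heckeAlgebra_mono (Set.empty_subset S))).toRingHom

theorem heckeIncl_injective (N : ℕ) [NeZero N] (S : Set ℕ) :
    Function.Injective (heckeIncl N S) :=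
  Subalgebra.inclusion_injective _

theorem heckeIncl_T {N : ℕ} [NeZero N] {S : Set ℕ} {ℓ : ℕ} (hℓ : ℓ.Prime) (hℓN : ¬ ℓ ∣ N)
    (hℓS : ℓ ∉ S) : heckeIncl N S (CuspForm.heckeAlgebra.T hℓ hℓN hℓS) =
      CuspForm.heckeAlgebra.T hℓ hℓN (Set.notMem_empty _) := rfl

/-- [T35-OLDS-EIG] a system of eigenvalues away from `S` which factors through the Hecke algebra
of level `N` is the system of eigenvalues of a normalised eigenform of level `N`. -/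
theorem exists_eigenform_of_ringHom {N : ℕ} [NeZero N] (S : Set ℕ)
    (χ : CuspForm.heckeAlgebra N 2 S →+* ℂ) :
    ∃ f : CuspForm (Gamma0 N) 2, f.IsNormalizedEigenform ∧
      ∀ (ℓ : ℕ) (hℓ : ℓ.Prime) (hℓN : ¬ ℓ ∣ N) (hℓS : ℓ ∉ S),
        qCoeff f ℓ = χ (CuspForm.heckeAlgebra.T hℓ hℓN hℓS) := by
  obtain ⟨f, hf, h⟩ := exists_eigenform_of_injective (heckeIncl N S) (heckeIncl_injective N S) χ
  exact ⟨f, hf, fun ℓ hℓ hℓN hℓS => h _ ℓ hℓ hℓN (heckeIncl_T hℓ hℓN hℓS)⟩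

/-- [T35-OLDS] a Hecke operator away from `S` killing the level `M₁` but not the form `g` of level
`M₁ * q`, new at `q`. -/
theorem exists_oldKiller_away {M₁ q : ℕ} [NeZero M₁] [NeZero (M₁ * q)]
    {g : CuspForm (Gamma0 (M₁ * q)) 2} (hg : g.IsNormalizedEigenform)
    (hnew : ¬ g.GoodEigensystemOccursAt M₁) (S : Finset ℕ)
    (hS : ∀ ℓ : ℕ, ℓ.Prime → ℓ ∣ M₁ * q → ℓ ∈ S)
    (χ : CuspForm.heckeAlgebra (M₁ * q) 2 (↑S : Set ℕ) →+* ℂ)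
    (hχ : ∀ (ℓ : ℕ) (hℓ : ℓ.Prime) (hℓM : ¬ ℓ ∣ M₁ * q) (hℓS : ℓ ∉ (↑S : Set ℕ)),
      χ (CuspForm.heckeAlgebra.T hℓ hℓM hℓS) = qCoeff g ℓ) :
    ∃ t₀ : MvPolynomial ℕ ℤ, MvPolynomial.aeval (heckeT M₁ (↑S : Set ℕ)) t₀ = 0 ∧
      χ (MvPolynomial.aeval (heckeT (M₁ * q) (↑S : Set ℕ)) t₀) ≠ 0 := by
  by_contra hcon
  push Not at hcon
  let ε : MvPolynomial ℕ ℤ →+* CuspForm.heckeAlgebra M₁ 2 (↑S : Set ℕ) :=
    (MvPolynomial.aeval (heckeT M₁ (↑S : Set ℕ)) :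
      MvPolynomial ℕ ℤ →ₐ[ℤ] CuspForm.heckeAlgebra M₁ 2 (↑S : Set ℕ)).toRingHom
  let X : MvPolynomial ℕ ℤ →+* ℂ := χ.comp
    (MvPolynomial.aeval (heckeT (M₁ * q) (↑S : Set ℕ)) :
      MvPolynomial ℕ ℤ →ₐ[ℤ] CuspForm.heckeAlgebra (M₁ * q) 2 (↑S : Set ℕ)).toRingHom
  let κ : MvPolynomial ℕ ℤ ⧸ RingHom.ker ε →+* CuspForm.heckeAlgebra M₁ 2 ∅ :=
    (heckeIncl M₁ (↑S : Set ℕ)).comp (RingHom.kerLift ε)
  have hκ : Function.Injective κ :=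
    (heckeIncl_injective M₁ (↑S : Set ℕ)).comp (RingHom.kerLift_injective ε)
  let χ' : MvPolynomial ℕ ℤ ⧸ RingHom.ker ε →+* ℂ :=
    Ideal.Quotient.lift (RingHom.ker ε) X (fun t ht => hcon t ht)
  obtain ⟨f, hf, h⟩ := exists_eigenform_of_injective κ hκ χ'
  have hdiv : ∀ ℓ : ℕ, ¬ ℓ ∣ M₁ * q → ¬ ℓ ∣ M₁ := fun ℓ h1 h2 => h1 (h2.mul_right q)
  have hfg : ∀ ℓ : ℕ, ℓ.Prime → ℓ ∉ S → qCoeff f ℓ = qCoeff g ℓ := by
    intro ℓ hℓ hℓS
    have hℓM : ¬ ℓ ∣ M₁ * q := fun hd => hℓS (hS ℓ hℓ hd)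
    have hc : ℓ ∉ (↑S : Set ℕ) := by simpa using hℓS
    have h1 : κ (Ideal.Quotient.mk _ (MvPolynomial.X ℓ)) =
        CuspForm.heckeAlgebra.T hℓ (hdiv ℓ hℓM) (Set.notMem_empty _) := by
      have h4 : ε (MvPolynomial.X ℓ) = heckeT M₁ (↑S : Set ℕ) ℓ := MvPolynomial.aeval_X _ ℓ
      have h5 : κ (Ideal.Quotient.mk _ (MvPolynomial.X ℓ)) =
          heckeIncl M₁ (↑S : Set ℕ) (ε (MvPolynomial.X ℓ)) := rfl
      rw [h5, h4, heckeT_eq hℓ (hdiv ℓ hℓM) hc, heckeIncl_T]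
    rw [h _ ℓ hℓ (hdiv ℓ hℓM) h1]
    have h2 : χ' (Ideal.Quotient.mk _ (MvPolynomial.X ℓ)) =
        χ (MvPolynomial.aeval (heckeT (M₁ * q) (↑S : Set ℕ)) (MvPolynomial.X ℓ)) := rfl
    rw [h2, MvPolynomial.aeval_X, heckeT_eq hℓ hℓM hc, hχ]
  exact hnew ⟨f, hf, fun ℓ hℓ hℓM => smo hf hg S hfg ℓ hℓ (hdiv ℓ hℓM) hℓM⟩

end Fermat.Agent.SS
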