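import Fermat.Agent.SS.Top35.NormQ
import Fermat.Agent.S24.CuspFinal

/-!
# SS / TOP-35, leaf [T35-NORMBC] : the norms `N_α`, `N_β` commute with `B : T ↦ T ^ c`
-/

set_option autoImplicit false
set_option linter.unusedSectionVars false

noncomputable section

open ModularCurve AlgebraicCurve

namespace Fermat.Agent.SS

open Fermat.Agent.RED Fermat.Agent.RED.ES Fermat.Agent.S24

theorem qExpand_eq_of_eq {R : Type*} [CommRing R] {n n' : ℕ} [NeZero n] [NeZero n'] (h : n = n')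
    (x : LaurentSeries R) : qExpand R n x = qExpand R n' x := by
  subst h; rfl

theorem qExpand_comm' {R : Type*} [CommRing R] (n n' : ℕ) [NeZero n] [NeZero n']
    (x : LaurentSeries R) : qExpand R n (qExpand R n' x) = qExpand R n' (qExpand R n x) := by
  rw [qExpand_qExpand, qExpand_qExpand]
  exact qExpand_eq_of_eq (mul_comm n n') x

theorem rotR_qExpand_pow {R : Type*} [CommRing R] (c : ℕ) [NeZero c] (u : Rˣ)
    (x : LaurentSeries R) : rotR u (qExpand R c x) = qExpand R c (rotR (u ^ c) x) := by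
  ext m
  rw [rotR_coeff]
  by_cases hm : (c : ℤ) ∣ m
  · obtain ⟨n, rfl⟩ := hm
    rw [qExpand_coeff_mul, qExpand_coeff_mul, rotR_coeff, zpow_mul, zpow_natCast]
  · rw [qExpand_coeff_of_not_dvd c _ hm, qExpand_coeff_of_not_dvd c _ hm, mul_zero]

theorem jqNModC_mul {R : Type*} [CommRing R] (c d : ℕ) [NeZero c] [NeZero d] :
    qExpand R c (jqNModC R d) = jqNModC R (c * d) := by
  rw [jqNModC, jqNModC, qExpand_qExpand]

section B

variable (N N' c : ℕ) [NeZero c] (h : N * c ∣ N')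

include h in
theorem qExpand_mem_bar (f : FN N) :
    qExpand Kb c (f : LaurentSeries Kb) ∈ modularFunctionFieldBar N' := by
  have := CuspF.mem_of_gen (N := N)
    ((qExpand Kb c).comp (modularFunctionFieldBar N).val.toRingHom)
    (modularFunctionFieldBar N').toSubfield ?_ ?_ f
  · exact this
  · intro a
    show qExpand Kb c ((algebraMap Kb (FN N) a : FN N) : LaurentSeries Kb) ∈
      modularFunctionFieldBar N'
    rw [coe_algebraMap_FN, qExpand_C', ← coe_algebraMap_FN N']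
    exact (algebraMap Kb (FN N') a).2
  · intro d _ hd
    show qExpand Kb c ((jBar N d hd : FN N) : LaurentSeries Kb) ∈ modularFunctionFieldBar N'
    have hcd : c * d ∣ N' := by
      refine dvd_trans ?_ h
      rw [mul_comm c d]
      exact Nat.mul_dvd_mul_right hd c
    rw [coe_jBar, jqNModC_mul, ← coe_jBar N' (c * d) hcd]
    exact (jBar N' (c * d) hcd).2

/-- `B : F_N → F_{N'}`, `T ↦ T ^ c` (`N c ∣ N'`) -/
def Bmap : FN N →+* FN N' :=
  ((qExpand Kb c).comp (modularFunctionFieldBar N).val.toRingHom).codRestrict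
    (modularFunctionFieldBar N').toSubfield (qExpand_mem_bar N N' c h)

theorem coe_Bmap (f : FN N) :
    ((Bmap N N' c h f : FN N') : LaurentSeries Kb) = qExpand Kb c (f : LaurentSeries Kb) := rfl

end B

variable {M₁ M₂ q c : ℕ} [NeZero M₁] [NeZero M₂] [NeZero c] [hq : Fact q.Prime]
  (h₁ : ¬ q ∣ M₁) (h₂ : ¬ q ∣ M₂) (hM : M₁ * c ∣ M₂)

include hM in
theorem mul_dvd_aux : M₁ * q * c ∣ M₂ * q := by
  rw [mul_right_comm]
  exact Nat.mul_dvd_mul_right hM q

include hM in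
/-- `w_q` commutes with `B` -/
theorem coe_swAlg_of_qExpand {f : FN (M₁ * q)} {g : FN (M₂ * q)}
    (hg : (g : LaurentSeries Kb) = qExpand Kb c (f : LaurentSeries Kb)) :
    ((swAlg M₂ q h₂ g : FN (M₂ * q)) : LaurentSeries Kb) =
      qExpand Kb c ((swAlg M₁ q h₁ f : FN (M₁ * q)) : LaurentSeries Kb) := by
  have hd := mul_dvd_aux (q := q) hM
  have hgB : g = Bmap (M₁ * q) (M₂ * q) c hd f := Subtype.ext hg
  have key : ((modularFunctionFieldBar (M₂ * q)).val.toRingHom.comp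
      ((swAlg M₂ q h₂ : FN (M₂ * q) →+* FN (M₂ * q)).comp (Bmap (M₁ * q) (M₂ * q) c hd))) =
      (qExpand Kb c).comp ((modularFunctionFieldBar (M₁ * q)).val.toRingHom.comp
        (swAlg M₁ q h₁ : FN (M₁ * q) →+* FN (M₁ * q))) := by
    apply ringHom_ext_bar
    · intro a
      have e : Bmap (M₁ * q) (M₂ * q) c hd (algebraMap Kb _ a) = algebraMap Kb _ a := by
        apply Subtype.ext
        rw [coe_Bmap, coe_algebraMap_FN, qExpand_C', coe_algebraMap_FN]
      simp only [RingHom.comp_apply, RingHom.coe_coe, e, AlgHom.commutes]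
      show ((algebraMap Kb (FN (M₂ * q)) a : FN (M₂ * q)) : LaurentSeries Kb) =
        qExpand Kb c ((algebraMap Kb (FN (M₁ * q)) a : FN (M₁ * q)) : LaurentSeries Kb)
      rw [coe_algebraMap_FN, coe_algebraMap_FN, qExpand_C']
    · intro D _ hD
      simp only [RingHom.comp_apply, RingHom.coe_coe]
      by_cases hqD : q ∣ D
      · obtain ⟨d, rfl⟩ := hqD
        have hd1 : d ∣ M₁ := by
          rw [mul_comm M₁ q] at hD
          exact Nat.dvd_of_mul_dvd_mul_left hq.out.pos hD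
        have : NeZero d := ⟨fun h0 => NeZero.ne (q * d) (by rw [h0, mul_zero])⟩
        have hd2 : c * d ∣ M₂ := by
          refine dvd_trans ?_ hM
          rw [mul_comm c d]
          exact Nat.mul_dvd_mul_right hd1 c
        have e1 : jBar (M₁ * q) (q * d) hD = heckeBetaBar Kb M₁ q (jBar M₁ d hd1) :=
          (RED.ES.heckeBetaBar_jBar M₁ q d hd1).symm
        have e2 : Bmap (M₁ * q) (M₂ * q) c hd (heckeBetaBar Kb M₁ q (jBar M₁ d hd1)) =
            heckeBetaBar Kb M₂ q (jBar M₂ (c * d) hd2) := by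
          apply Subtype.ext
          rw [coe_Bmap, coe_heckeBetaBar, coe_heckeBetaBar, coe_jBar, coe_jBar, ← jqNModC_mul,
            qExpand_comm']
        rw [e1, e2, swAlg_beta, swAlg_beta]
        show ((heckeAlphaBar Kb M₂ q (jBar M₂ (c * d) hd2) : FN (M₂ * q)) : LaurentSeries Kb) =
          qExpand Kb c ((heckeAlphaBar Kb M₁ q (jBar M₁ d hd1) : FN (M₁ * q)) : LaurentSeries Kb)
        rw [coe_heckeAlphaBar, coe_heckeAlphaBar, coe_jBar, coe_jBar, jqNModC_mul]
      · have hd1 : D ∣ M₁ :=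
          (Nat.Coprime.dvd_of_dvd_mul_right
            ((Nat.Prime.coprime_iff_not_dvd hq.out).mpr hqD).symm hD)
        have hd2 : c * D ∣ M₂ := by
          refine dvd_trans ?_ hM
          rw [mul_comm c D]
          exact Nat.mul_dvd_mul_right hd1 c
        have e1 : jBar (M₁ * q) D hD = heckeAlphaBar Kb M₁ q (jBar M₁ D hd1) :=
          (RED.ES.heckeAlphaBar_jBar M₁ q D hd1).symm
        have e2 : Bmap (M₁ * q) (M₂ * q) c hd (heckeAlphaBar Kb M₁ q (jBar M₁ D hd1)) =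
            heckeAlphaBar Kb M₂ q (jBar M₂ (c * D) hd2) := by
          apply Subtype.ext
          rw [coe_Bmap, coe_heckeAlphaBar, coe_heckeAlphaBar, coe_jBar, coe_jBar, jqNModC_mul]
        rw [e1, e2, swAlg_alpha, swAlg_alpha]
        show ((heckeBetaBar Kb M₂ q (jBar M₂ (c * D) hd2) : FN (M₂ * q)) : LaurentSeries Kb) =
          qExpand Kb c ((heckeBetaBar Kb M₁ q (jBar M₁ D hd1) : FN (M₁ * q)) : LaurentSeries Kb)
        rw [coe_heckeBetaBar, coe_heckeBetaBar, coe_jBar, coe_jBar, ← jqNModC_mul, qExpand_comm']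
  rw [hgB]
  exact congrArg (fun φ => φ f) key

include h₁ h₂ hM in
/-- **[T35-NORMBC]**, `α` -/
theorem coe_normAlong_alpha_of_qExpand (hc : ¬ q ∣ c) {f : FN (M₁ * q)} {g : FN (M₂ * q)}
    (hg : (g : LaurentSeries Kb) = qExpand Kb c (f : LaurentSeries Kb)) :
    ((TorsES.normAlong (heckeAlphaBar Kb M₂ q) g : FN M₂) : LaurentSeries Kb) =
      qExpand Kb c ((TorsES.normAlong (heckeAlphaBar Kb M₁ q) f : FN M₁) : LaurentSeries Kb) := by
  obtain ⟨ζ₀, hζ₀⟩ := HasEnoughRootsOfUnity.exists_primitiveRoot Kb q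
  obtain ⟨ζ, rfl⟩ : ∃ ζ : Kbˣ, (ζ : Kb) = ζ₀ := ⟨(hζ₀.isUnit (NeZero.ne q)).unit, rfl⟩
  have hζ : IsPrimitiveRoot ζ q := IsPrimitiveRoot.coe_units_iff.1 hζ₀
  have hζc : IsPrimitiveRoot (ζ ^ c) q :=
    hζ.pow_of_coprime c ((Nat.Prime.coprime_iff_not_dvd hq.out).mpr hc).symm
  have F2 := qExpand_normAlong_alpha M₂ q (swAlg M₂ q h₂ : FN (M₂ * q) →+* FN (M₂ * q))
    (swAlg_alpha M₂ q h₂) (swAlg_beta M₂ q h₂) ζ hζ hq.out h₂ g
  have F1 := qExpand_normAlong_alpha M₁ q (swAlg M₁ q h₁ : FN (M₁ * q) →+* FN (M₁ * q))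
    (swAlg_alpha M₁ q h₁) (swAlg_beta M₁ q h₁) (ζ ^ c) hζc hq.out h₁ f
  apply qExpand_injective (R := Kb) q
  rw [F2, qExpand_comm', F1, map_mul, map_prod, hg, qExpand_comm']
  congr 1
  refine Finset.prod_congr rfl fun b _ => ?_
  rw [RingHom.coe_coe, RingHom.coe_coe, coe_swAlg_of_qExpand h₁ h₂ hM hg, rotR_qExpand_pow,
    ← pow_mul, ← pow_mul, mul_comm b c]

include h₁ h₂ hM in
/-- **[T35-NORMBC]**, `β` -/
theorem coe_normAlong_beta_of_qExpand (hc : ¬ q ∣ c) {f : FN (M₁ * q)} {g : FN (M₂ * q)}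
    (hg : (g : LaurentSeries Kb) = qExpand Kb c (f : LaurentSeries Kb)) :
    ((TorsES.normAlong (heckeBetaBar Kb M₂ q) g : FN M₂) : LaurentSeries Kb) =
      qExpand Kb c ((TorsES.normAlong (heckeBetaBar Kb M₁ q) f : FN M₁) : LaurentSeries Kb) := by
  rw [normAlong_beta_eq h₂, normAlong_beta_eq h₁]
  exact coe_normAlong_alpha_of_qExpand h₁ h₂ hM hc (coe_swAlg_of_qExpand h₁ h₂ hM hg)

/-- **[T35-NORMBC]**, `α`, in the shape of the consumer -/
theorem normAlong_alpha_bc (M₁ c q : ℕ) [NeZero M₁] [NeZero c] [Fact q.Prime]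
    (hqM : ¬ q ∣ M₁ * c) (f : FN (M₁ * q)) (g : FN (M₁ * c * q))
    (hg : (g : LaurentSeries Kb) = qExpand Kb c (f : LaurentSeries Kb)) :
    ((TorsES.normAlong (heckeAlphaBar Kb (M₁ * c) q) g : FN (M₁ * c)) : LaurentSeries Kb) =
      qExpand Kb c ((TorsES.normAlong (heckeAlphaBar Kb M₁ q) f : FN M₁) : LaurentSeries Kb) :=
  coe_normAlong_alpha_of_qExpand (fun h => hqM (h.mul_right c)) hqM dvd_rfl
    (fun h => hqM (h.mul_left M₁)) hg

/-- **[T35-NORMBC]**, `β`, in the shape of the consumer -/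
theorem normAlong_beta_bc (M₁ c q : ℕ) [NeZero M₁] [NeZero c] [Fact q.Prime]
    (hqM : ¬ q ∣ M₁ * c) (f : FN (M₁ * q)) (g : FN (M₁ * c * q))
    (hg : (g : LaurentSeries Kb) = qExpand Kb c (f : LaurentSeries Kb)) :
    ((TorsES.normAlong (heckeBetaBar Kb (M₁ * c) q) g : FN (M₁ * c)) : LaurentSeries Kb) =
      qExpand Kb c ((TorsES.normAlong (heckeBetaBar Kb M₁ q) f : FN M₁) : LaurentSeries Kb) :=
  coe_normAlong_beta_of_qExpand (fun h => hqM (h.mul_right c)) hqM dvd_rfl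
    (fun h => hqM (h.mul_left M₁)) hg

end Fermat.Agent.SS
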