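import Fermat.Agent.RED.ES.Norm
import Fermat.Agent.RED.TorsESAbs
import Fermat.Agent.SS.Z1.Transport

/-!
# SS / TOP-35, leaf [T35-NORMRED] : the `q`-expansion of the norm `N_α f` of ANY `f ∈ F_{M q}` and
its reduction
-/

set_option autoImplicit false
set_option linter.unusedSectionVars false
set_option linter.style.haveILetI false

noncomputable section

open ModularCurve AlgebraicCurve

namespace Fermat.Agent.SS

open Fermat.Agent.RED Fermat.Agent.RED.ES Fermat.Agent.RED.Gauss Fermat.Agent.S24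
open Fermat.Agent.RED.Cusp (Fb jb)

section Formula

variable (N ℓ : ℕ) [NeZero N] [NeZero ℓ]
variable (s : FN (N * ℓ) →+* FN (N * ℓ))
  (hsα : ∀ f : FN N, s (heckeAlphaBar Kb N ℓ f) = heckeBetaBar Kb N ℓ f)
  (hsβ : ∀ f : FN N, s (heckeBetaBar Kb N ℓ f) = heckeAlphaBar Kb N ℓ f)
  (ζ : Kbˣ) (hζ : IsPrimitiveRoot ζ ℓ)

include hsα hsβ hζ in
/-- **The `q`-expansion of the norm of any function.** -/
theorem qExpand_normAlong_alpha (hℓ : ℓ.Prime) (hℓN : ¬ ℓ ∣ N) (f : FN (N * ℓ)) :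
    qExpand Kb ℓ ((TorsES.normAlong (heckeAlphaBar Kb N ℓ) f : FN N) : LaurentSeries Kb)
      = qExpand Kb ℓ (f : LaurentSeries Kb) *
        ∏ b ∈ Finset.range ℓ, rotR (ζ ^ b) ((s f : FN (N * ℓ)) : LaurentSeries Kb) := by
  unfold TorsES.normAlong
  letI := algebraAlong (heckeAlphaBar Kb N ℓ)
  letI := algLauBar N ℓ
  haveI := Fermat.Agent.GAL.HeckeEquiv.finite_alpha N ℓ
  apply lauIncl.injective
  have h1 := Algebra.norm_eq_prod_embeddings (FN N) LauBar f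
  have h2 : algebraMap (FN N) LauBar = lauIncl.comp (toLau ℓ N) :=
    RingHom.algebraMap_toAlgebra _
  rw [h2, RingHom.comp_apply, toLau_apply] at h1
  have hbij : Function.Bijective (fun i : Option (Fin ℓ) =>
      mkEmb N ℓ (famHom N ℓ s ζ i) (famHom_alpha N ℓ s hsα ζ hζ i)) := by
    rw [Fintype.bijective_iff_injective_and_card]
    refine ⟨?_, ?_⟩
    · intro i i' hii
      apply famHom_injective N ℓ s hsβ ζ hζ hℓ
      ext1 f
      apply lauIncl.injective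
      exact DFunLike.congr_fun hii f
    · rw [AlgHom.card, finrank_alpha_eq N ℓ hℓ hℓN, Fintype.card_option, Fintype.card_fin]
  refine h1.trans ?_
  rw [← hbij.prod_comp (fun σ : FN (N * ℓ) →ₐ[FN N] LauBar => σ f),
    Fintype.prod_option, map_mul, map_prod]
  refine congrArg₂ (· * ·) ?_ ?_
  · rw [mkEmb_apply, famHom_none]
  · rw [← Fin.prod_univ_eq_prod_range
      (fun b => lauIncl (rotR (ζ ^ b) ((s f : FN (N * ℓ)) : LaurentSeries Kb))) ℓ]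
    refine Finset.prod_congr rfl fun b _ => ?_
    rw [mkEmb_apply, famHom_some]

end Formula

section Formal

variable {R : Type*} [CommRing R] [IsDomain R]

/-- `∏_b w(ζ^b t)` is a series in `t ^ ℓ`. -/
theorem exists_qExpand_eq_prod_rotR (ℓ : ℕ) [NeZero ℓ] (ζ : Rˣ) (hζ : IsPrimitiveRoot ζ ℓ)
    (w : LaurentSeries R) :
    ∃ W : LaurentSeries R, qExpand R ℓ W = ∏ b ∈ Finset.range ℓ, rotR (ζ ^ b) w := by
  set p : LaurentSeries R := ∏ b ∈ Finset.range ℓ, rotR (ζ ^ b) w with hp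
  have hinv : rotR ζ p = p := by
    rcases eq_or_ne w 0 with rfl | hw
    · have : p = 0 := by
        rw [hp]
        exact Finset.prod_eq_zero (Finset.mem_range.2 (Nat.pos_of_ne_zero (NeZero.ne ℓ)))
          (map_zero _)
      rw [this, map_zero]
    · have h1 : rotR ζ p = ∏ b ∈ Finset.range ℓ, rotR (ζ ^ (b + 1)) w := by
        rw [hp, map_prod]
        refine Finset.prod_congr rfl fun b _ => ?_
        rw [rotR_rotR, pow_succ']
      have h2 := Finset.prod_range_succ (fun b => rotR (ζ ^ b) w) ℓ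
      have h3 := Finset.prod_range_succ' (fun b => rotR (ζ ^ b) w) ℓ
      rw [h2, hζ.pow_eq_one, pow_zero, rotR_one_left] at h3
      rw [h1]
      exact (mul_right_cancel₀ hw h3).symm
  have hc : ∀ n : ℤ, ¬ (ℓ : ℤ) ∣ n → p.coeff n = 0 := by
    intro n hn
    have h1 := congrArg (fun z => z.coeff n) hinv
    simp only [rotR_coeff] at h1
    have h2 : (((ζ ^ n : Rˣ) : R) - 1) * p.coeff n = 0 := by rw [sub_mul, h1, one_mul, sub_self]
    rcases mul_eq_zero.1 h2 with h3 | h3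
    · exfalso
      apply hn
      rw [← hζ.zpow_eq_one_iff_dvd]
      exact Units.ext (sub_eq_zero.1 h3)
    · exact h3
  refine ⟨qContract ℓ p, ?_⟩
  ext m
  by_cases hm : (ℓ : ℤ) ∣ m
  · obtain ⟨c, rfl⟩ := hm
    rw [qExpand_coeff_mul, qContract_coeff]
  · rw [qExpand_coeff_of_not_dvd ℓ _ hm, hc m hm]

end Formal

section Gauss

variable {L : Type*} [Field L] {A : ValuationSubring L} {k : Type*} [Field k] (π : A →+* k)

theorem iota_rotR (u : Aˣ) (x : LaurentSeries A) :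
    iota A (rotR u x) = rotR (Units.map (A.subtype : A →* L) u) (iota A x) := by
  unfold iota
  exact coeffMap_rotR A.subtype u x

theorem iota_qExpand' (c : ℕ) [NeZero c] (x : LaurentSeries A) :
    iota A (qExpand A c x) = qExpand L c (iota A x) := by
  rw [iota, coeffMap_qExpand]

/-- **The formal part of [T35-NORMRED].** -/
theorem bigO_of_qExpand_eq (ℓ : ℕ) [NeZero ℓ] [ExpChar k ℓ] (ζ : Aˣ) (hζ : IsPrimitiveRoot ζ ℓ)
    (hπζ : π ζ = 1) {z x y : LaurentSeries L} (hx : x ∈ bigO π) (hy : y ∈ bigO π)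
    (h : qExpand L ℓ z = qExpand L ℓ x *
      ∏ b ∈ Finset.range ℓ, rotR ((Units.map (A.subtype : A →* L) ζ) ^ b) y) :
    ∃ hz : z ∈ bigO π, bigRed π ⟨z, hz⟩ =
      bigRed π ⟨x, hx⟩ * coeffMap (frobenius k ℓ) (bigRed π ⟨y, hy⟩) := by
  obtain ⟨a, b, hb, hab⟩ := id hx
  obtain ⟨a', b', hb', hab'⟩ := id hy
  obtain ⟨Wa, hWa⟩ := exists_qExpand_eq_prod_rotR ℓ ζ hζ a'
  obtain ⟨Wb, hWb⟩ := exists_qExpand_eq_prod_rotR ℓ ζ hζ b'
  have hpi : ∀ (w W : LaurentSeries A), qExpand A ℓ W = ∏ b ∈ Finset.range ℓ, rotR (ζ ^ b) w →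
      pi π W = coeffMap (frobenius k ℓ) (pi π w) := by
    intro w W hW
    apply qExpand_injective (R := k) ℓ
    rw [← pow_char_eq, pi, ← coeffMap_qExpand, hW, coeffMap_prod_rotR π ζ hπζ]
  have hio : ∀ (w W : LaurentSeries A), qExpand A ℓ W = ∏ b ∈ Finset.range ℓ, rotR (ζ ^ b) w →
      qExpand L ℓ (iota A W) =
        ∏ b ∈ Finset.range ℓ, rotR ((Units.map (A.subtype : A →* L) ζ) ^ b) (iota A w) := by
    intro w W hW
    rw [← iota_qExpand', hW, map_prod]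
    refine Finset.prod_congr rfl fun b _ => ?_
    rw [iota_rotR, map_pow]
  have hWb0 : pi π Wb ≠ 0 := by
    rw [hpi b' Wb hWb]
    exact (map_ne_zero _).2 hb'
  have hbW : pi π (b * Wb) ≠ 0 := by
    rw [map_mul]; exact mul_ne_zero hb hWb0
  have key : z * iota A (b * Wb) = iota A (a * Wa) := by
    apply qExpand_injective (R := L) ℓ
    have e1 : ∏ c ∈ Finset.range ℓ, rotR ((Units.map (A.subtype : A →* L) ζ) ^ c) (iota A a') =
        (∏ c ∈ Finset.range ℓ, rotR ((Units.map (A.subtype : A →* L) ζ) ^ c) y) *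
          ∏ c ∈ Finset.range ℓ, rotR ((Units.map (A.subtype : A →* L) ζ) ^ c) (iota A b') := by
      rw [← Finset.prod_mul_distrib]
      refine Finset.prod_congr rfl fun c _ => ?_
      rw [← map_mul, hab']
    have e2 : qExpand L ℓ (iota A a) = qExpand L ℓ x * qExpand L ℓ (iota A b) := by
      rw [← map_mul, hab]
    rw [map_mul (iota A), map_mul (iota A), map_mul (qExpand L ℓ), map_mul (qExpand L ℓ),
      map_mul (qExpand L ℓ), h, hio b' Wb hWb, hio a' Wa hWa, e1, e2]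
    ring
  have hz : z ∈ bigO π := ⟨a * Wa, b * Wb, hbW, key⟩
  refine ⟨hz, ?_⟩
  rw [bigRed_eq π ⟨z, hz⟩ hbW key, bigRed_eq π ⟨x, hx⟩ hb hab, bigRed_eq π ⟨y, hy⟩ hb' hab',
    map_mul (pi π), map_mul (pi π), hpi a' Wa hWa, hpi b' Wb hWb, map_div₀, div_mul_div_comm]

end Gauss

section NormSwap

variable {K F F' : Type*} [Field K] [Field F] [Field F'] [Algebra K F] [Algebra K F']

/-- the norm along `ψ'` is the norm along `ψ` after an automorphism `e` with `e ∘ ψ' = ψ` -/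
theorem normAlong_eq_of_equiv (ψ ψ' : F →ₐ[K] F') (e : F' ≃+* F') (h : ∀ a, e (ψ' a) = ψ a)
    (z : F') : TorsES.normAlong ψ' z = TorsES.normAlong ψ (e z) := by
  unfold TorsES.normAlong
  have := @Algebra.norm_eq_of_equiv_equiv F F' F F' _ _ _ _ (algebraAlong ψ') (algebraAlong ψ)
    (RingEquiv.refl F) e (by
      refine RingHom.ext fun a => ?_
      exact (h a).symm) z
  exact this

end NormSwap

section Modular

variable {M q : ℕ} [NeZero M] [hq : Fact q.Prime] (hqM : ¬ q ∣ M)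
variable {A : ValuationSubring Kb} {k : Type*} [Field k]
variable (π : A →+* k) [CharP k q]

/-- a primitive `q`-th root of unity of `A`; it is `≡ 1` -/
theorem exists_zeta_unit : ∃ ζ : Aˣ, IsPrimitiveRoot ζ q ∧ π ζ = 1 ∧
    IsPrimitiveRoot (Units.map (A.subtype : A →* Kb) ζ) q := by
  haveI : ExpChar k q := ExpChar.prime hq.out
  obtain ⟨ζ, hζ⟩ := HasEnoughRootsOfUnity.exists_primitiveRoot Kb q
  have hζ1 : ζ ^ q = 1 := hζ.pow_eq_one
  have hζi : (ζ⁻¹) ^ q = 1 := by rw [inv_pow, hζ1, inv_one]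
  have hζ0 : ζ ≠ 0 := hζ.ne_zero (NeZero.ne q)
  let ζA : Aˣ :=
    ⟨⟨ζ, mem_valuationSubring_of_pow_eq_one A (NeZero.ne q) hζ1⟩,
      ⟨ζ⁻¹, mem_valuationSubring_of_pow_eq_one A (NeZero.ne q) hζi⟩,
      Subtype.ext (mul_inv_cancel₀ hζ0), Subtype.ext (inv_mul_cancel₀ hζ0)⟩
  have hζA : ζA ^ q = 1 := by
    apply Units.ext
    apply Subtype.ext
    simpa [ζA] using hζ1
  have hπ : π ζA = 1 := by
    apply frobenius_inj k q
    rw [frobenius_def, frobenius_def, one_pow, ← map_pow, ← Units.val_pow_eq_pow_val, hζA,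
      Units.val_one, map_one]
  have hprim : IsPrimitiveRoot (Units.map (A.subtype : A →* Kb) ζA) q := by
    rw [← IsPrimitiveRoot.coe_units_iff]
    exact hζ
  refine ⟨ζA, ?_, hπ, hprim⟩
  exact hprim.of_map_of_injective (Units.map_injective A.subtype_injective)

theorem coe_algebraMap_FN (N : ℕ) (c : Kb) :
    ((algebraMap Kb (FN N) c : FN N) : LaurentSeries Kb) = HahnSeries.C c := by
  have h1 : ((algebraMap Kb (FN N) c : FN N) : LaurentSeries Kb) =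
      algebraMap Kb (LaurentSeries Kb) c := rfl
  rw [h1, S28.algebraMap_laurent_eq_C]

theorem qExpand_C' {R : Type*} [CommRing R] (n : ℕ) [NeZero n] (c : R) :
    qExpand R n (HahnSeries.C c) = HahnSeries.C c := by
  rw [HahnSeries.C_apply, qExpand_single, mul_zero]

theorem rotR_C' {R : Type*} [CommRing R] (u : Rˣ) (c : R) :
    rotR u (HahnSeries.C c) = HahnSeries.C c := by
  rw [HahnSeries.C_apply, rotR_single, zpow_zero, Units.val_one, one_mul]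

/-- **[T35-NORMRED]**, `α`. -/
theorem exists_normAlong_alpha_red {f f₁ f₂ : FN (M * q)} {c₁ c₂ : Kb} (hc₁ : c₁ ≠ 0)
    (hc₂ : c₂ ≠ 0) (hf₁ : f = algebraMap Kb _ c₁ * f₁) (hf₂ : f = algebraMap Kb _ c₂ * f₂)
    (h₁ : emb₁ M q f₁ ∈ bigO π) (h₂ : emb₂ M q hqM f₂ ∈ bigO π) :
    ∃ (u : FN M) (hu : (u : LaurentSeries Kb) ∈ bigO π),
      TorsES.normAlong (heckeAlphaBar Kb M q) f = algebraMap Kb (FN M) (c₁ * c₂ ^ q) * u ∧
      bigRed π ⟨(u : LaurentSeries Kb), hu⟩ =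
        bigRed π ⟨_, h₁⟩ * coeffMap (frobenius k q) (bigRed π ⟨_, h₂⟩) := by
  haveI : ExpChar k q := ExpChar.prime hq.out
  obtain ⟨ζ, hζ, hπζ, hζ'⟩ := exists_zeta_unit (q := q) π
  have hc : c₁ * c₂ ^ q ≠ 0 := mul_ne_zero hc₁ (pow_ne_zero _ hc₂)
  set u : FN M := algebraMap Kb (FN M) (c₁ * c₂ ^ q)⁻¹ *
    TorsES.normAlong (heckeAlphaBar Kb M q) f with hu
  have hN : TorsES.normAlong (heckeAlphaBar Kb M q) f = algebraMap Kb (FN M) (c₁ * c₂ ^ q) * u := by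
    rw [hu, ← mul_assoc, ← map_mul, mul_inv_cancel₀ hc, map_one, one_mul]
  have hform := qExpand_normAlong_alpha M q (swAlg M q hqM : FN (M * q) →+* FN (M * q))
    (swAlg_alpha M q hqM) (swAlg_beta M q hqM) _ hζ' hq.out hqM f
  have key : qExpand Kb q (u : LaurentSeries Kb) = qExpand Kb q (emb₁ M q f₁) *
      ∏ b ∈ Finset.range q, rotR ((Units.map (A.subtype : A →* Kb) ζ) ^ b) (emb₂ M q hqM f₂) := by
    have e1 : (f : LaurentSeries Kb) = HahnSeries.C c₁ * emb₁ M q f₁ := by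
      rw [hf₁, emb₁_apply, ← coe_algebraMap_FN (M * q)]; rfl
    have e2 : (((swAlg M q hqM : FN (M * q) →+* FN (M * q)) f : FN (M * q)) : LaurentSeries Kb) =
        HahnSeries.C c₂ * emb₂ M q hqM f₂ := by
      rw [hf₂, RingHom.coe_coe, map_mul, AlgHom.commutes, ← coe_algebraMap_FN (M * q)]; rfl
    have e3 : (u : LaurentSeries Kb) = HahnSeries.C (c₁ * c₂ ^ q)⁻¹ *
        ((TorsES.normAlong (heckeAlphaBar Kb M q) f : FN M) : LaurentSeries Kb) := by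
      rw [hu, ← coe_algebraMap_FN M]; rfl
    rw [e3, map_mul, hform, e1, e2, map_mul, qExpand_C', qExpand_C']
    simp only [map_mul, rotR_C', Finset.prod_mul_distrib, Finset.prod_const, Finset.card_range]
    have e4 : (HahnSeries.C (c₁ * c₂ ^ q)⁻¹ : LaurentSeries Kb) *
        (HahnSeries.C c₁ * HahnSeries.C c₂ ^ q) = 1 := by
      rw [← map_pow, ← map_mul, ← map_mul, inv_mul_cancel₀ hc, map_one]
    calc _ = (HahnSeries.C (c₁ * c₂ ^ q)⁻¹ * (HahnSeries.C c₁ * HahnSeries.C c₂ ^ q)) *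
          (qExpand Kb q (emb₁ M q f₁) * ∏ b ∈ Finset.range q,
            rotR ((Units.map (A.subtype : A →* Kb) ζ) ^ b) (emb₂ M q hqM f₂)) := by ring
      _ = _ := by rw [e4, one_mul]
  obtain ⟨hz, hred⟩ := bigO_of_qExpand_eq π q ζ hζ hπζ h₁ h₂ key
  exact ⟨u, hz, hN, hred⟩

/-- `N_β f = N_α (w f)` -/
theorem normAlong_beta_eq (f : FN (M * q)) :
    TorsES.normAlong (heckeBetaBar Kb M q) f =
      TorsES.normAlong (heckeAlphaBar Kb M q) (swAlg M q hqM f) :=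
  normAlong_eq_of_equiv (heckeAlphaBar Kb M q) (heckeBetaBar Kb M q)
    (RingEquiv.ofBijective (swAlg M q hqM : FN (M * q) →+* FN (M * q))
      ⟨(swAlg M q hqM : FN (M * q) →+* FN (M * q)).injective, swAlg_surjective hqM⟩)
    (swAlg_beta M q hqM) f

/-- **[T35-NORMRED]**, `β`. -/
theorem exists_normAlong_beta_red {f f₁ f₂ : FN (M * q)} {c₁ c₂ : Kb} (hc₁ : c₁ ≠ 0)
    (hc₂ : c₂ ≠ 0) (hf₁ : f = algebraMap Kb _ c₁ * f₁) (hf₂ : f = algebraMap Kb _ c₂ * f₂)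
    (h₁ : emb₁ M q f₁ ∈ bigO π) (h₂ : emb₂ M q hqM f₂ ∈ bigO π) :
    ∃ (u : FN M) (hu : (u : LaurentSeries Kb) ∈ bigO π),
      TorsES.normAlong (heckeBetaBar Kb M q) f = algebraMap Kb (FN M) (c₂ * c₁ ^ q) * u ∧
      bigRed π ⟨(u : LaurentSeries Kb), hu⟩ =
        bigRed π ⟨_, h₂⟩ * coeffMap (frobenius k q) (bigRed π ⟨_, h₁⟩) := by
  have g₁ : emb₁ M q (swAlg M q hqM f₂) ∈ bigO π := h₂
  have g₂ : emb₂ M q hqM (swAlg M q hqM f₁) ∈ bigO π := by rw [emb₂_swAlg]; exact h₁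
  obtain ⟨u, hu, hN, hred⟩ := exists_normAlong_alpha_red hqM π (f := swAlg M q hqM f) hc₂ hc₁
    (by rw [hf₂, map_mul, AlgHom.commutes]) (by rw [hf₁, map_mul, AlgHom.commutes]) g₁ g₂
  refine ⟨u, hu, by rw [normAlong_beta_eq hqM, hN], ?_⟩
  rw [hred]
  congr 2
  exact bigRed_congr π (emb₂_swAlg hqM f₁) g₂ h₁

section Two

variable [IsAlgClosed k] (hπ : Function.Surjective π)

theorem coe_rd_fst_eq {y : FN (M * q)} (h₁ : emb₁ M q y ∈ bigO π)
    (h₂ : emb₂ M q hqM y ∈ bigO π) :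
    (((RR hqM π hπ).rd y).1 : LaurentSeries k) = bigRed π ⟨emb₁ M q y, h₁⟩ := by
  rw [coe_RR_rd_fst]
  exact congrArg Prod.fst (ofEmb_rd h₁ h₂)

theorem coe_rd_snd_eq {y : FN (M * q)} (h₁ : emb₁ M q y ∈ bigO π)
    (h₂ : emb₂ M q hqM y ∈ bigO π) :
    (((RR hqM π hπ).rd y).2 : LaurentSeries k) = bigRed π ⟨emb₂ M q hqM y, h₂⟩ := by
  rw [coe_RR_rd_snd]
  exact congrArg Prod.snd (ofEmb_rd h₁ h₂)

/-- a general fact on `bigO` -/
theorem bigO_of_mul_eq {L : Type*} [Field L] {A : ValuationSubring L} {k : Type*} [Field k]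
    (π : A →+* k) {y s x : LaurentSeries L} (hs : s ∈ bigO π) (hx : x ∈ bigO π)
    (h0 : bigRed π ⟨s, hs⟩ ≠ 0) (h : y * s = x) :
    ∃ hy : y ∈ bigO π, bigRed π ⟨y, hy⟩ = bigRed π ⟨x, hx⟩ / bigRed π ⟨s, hs⟩ := by
  have hs0 : s ≠ 0 := by
    rintro rfl
    exact h0 (map_zero (bigRed π))
  have hinv := inv_mem_bigO π hs h0
  have hy : y ∈ bigO π := by
    have : y = x * s⁻¹ := by rw [← h, mul_assoc, mul_inv_cancel₀ hs0, mul_one]
    rw [this]
    exact mul_mem hx hinv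
  refine ⟨hy, ?_⟩
  rw [eq_div_iff h0, ← map_mul]
  exact congrArg (bigRed π) (Subtype.ext h)

/-- the first valuation ring of `twoRed` is the Gauss valuation ring of the expansion at `∞` -/
theorem emb₁_mem_of_mem_R₁ {y : FN (M * q)} (hy : y ∈ (twoRed hqM π hπ).R₁.O) :
    ∃ h : emb₁ M q y ∈ bigO π,
      (((twoRed hqM π hπ).R₁.red ⟨y, hy⟩ : Fb k M) : LaurentSeries k) = bigRed π ⟨_, h⟩ := by
  obtain ⟨x, hx, s, hs, h1, hys⟩ := ((RR hqM π hπ).mem_loc₁ hπ (hasScale hqM π hπ)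
    (red_surjective hqM π hπ)).1 hy
  have hred : (twoRed hqM π hπ).R₁.red ⟨y, hy⟩ =
      ((RR hqM π hπ).rd x).1 / ((RR hqM π hπ).rd s).1 :=
    (RR hqM π hπ).loc₁_red hπ (hasScale hqM π hπ) (red_surjective hqM π hπ) hy hx hs h1 hys
  obtain ⟨hs1, hs2⟩ := (mem_RR_O hqM π hπ).1 hs
  obtain ⟨hx1, hx2⟩ := (mem_RR_O hqM π hπ).1 hx
  have h0 : bigRed π ⟨emb₁ M q s, hs1⟩ ≠ 0 := by
    rw [← coe_rd_fst_eq hqM π hπ hs1 hs2]
    exact fun h => h1 (Subtype.ext h)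
  obtain ⟨h, hb⟩ := bigO_of_mul_eq π hs1 hx1 h0 (by rw [← map_mul, hys])
  refine ⟨h, ?_⟩
  rw [hb, hred, ← coe_rd_fst_eq hqM π hπ hs1 hs2, ← coe_rd_fst_eq hqM π hπ hx1 hx2]
  rfl

theorem emb₂_mem_of_mem_R₂ {y : FN (M * q)} (hy : y ∈ (twoRed hqM π hπ).R₂.O) :
    ∃ h : emb₂ M q hqM y ∈ bigO π,
      (((twoRed hqM π hπ).R₂.red ⟨y, hy⟩ : Fb k M) : LaurentSeries k) = bigRed π ⟨_, h⟩ := by
  obtain ⟨x, hx, s, hs, h1, hys⟩ := ((RR hqM π hπ).mem_loc₂ hπ (hasScale hqM π hπ)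
    (red_surjective hqM π hπ)).1 hy
  have hred : (twoRed hqM π hπ).R₂.red ⟨y, hy⟩ =
      ((RR hqM π hπ).rd x).2 / ((RR hqM π hπ).rd s).2 :=
    (RR hqM π hπ).loc₂_red hπ (hasScale hqM π hπ) (red_surjective hqM π hπ) hy hx hs h1 hys
  obtain ⟨hs1, hs2⟩ := (mem_RR_O hqM π hπ).1 hs
  obtain ⟨hx1, hx2⟩ := (mem_RR_O hqM π hπ).1 hx
  have h0 : bigRed π ⟨emb₂ M q hqM s, hs2⟩ ≠ 0 := by
    rw [← coe_rd_snd_eq hqM π hπ hs1 hs2]
    exact fun h => h1 (Subtype.ext h)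
  obtain ⟨h, hb⟩ := bigO_of_mul_eq π hs2 hx2 h0 (by rw [← map_mul, hys])
  refine ⟨h, ?_⟩
  rw [hb, hred, ← coe_rd_snd_eq hqM π hπ hs1 hs2, ← coe_rd_snd_eq hqM π hπ hx1 hx2]
  rfl

/-- **[T35-NORMRED]** in the language of `twoRed`: if `f = c₁ f₁ = c₂ f₂`, `f₁ ∈ O₁`, `f₂ ∈ O₂`,
`red₁ f₁ = a`, `red₂ f₂ = b` then `N_α f = c₁ c₂^q u`, `red u = a φ(b)` and
`N_β f = c₂ c₁^q u'`, `red u' = b φ(a)`, `φ` the coefficient Frobenius. -/
theorem twoRed_norm_red {f f₁ f₂ : FN (M * q)} {c₁ c₂ : Kb} (hc₁ : c₁ ≠ 0)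
    (hc₂ : c₂ ≠ 0) (hf₁ : f = algebraMap Kb _ c₁ * f₁) (hf₂ : f = algebraMap Kb _ c₂ * f₂)
    (h₁ : f₁ ∈ (twoRed hqM π hπ).R₁.O) (h₂ : f₂ ∈ (twoRed hqM π hπ).R₂.O) :
    (∃ (u : FN M) (hu : (u : LaurentSeries Kb) ∈ bigO π),
      TorsES.normAlong (heckeAlphaBar Kb M q) f = algebraMap Kb (FN M) (c₁ * c₂ ^ q) * u ∧
      bigRed π ⟨(u : LaurentSeries Kb), hu⟩ =
        (((twoRed hqM π hπ).R₁.red ⟨f₁, h₁⟩ *
          FrobK.frobAut k q M • (twoRed hqM π hπ).R₂.red ⟨f₂, h₂⟩ : Fb k M) : LaurentSeries k)) ∧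
    (∃ (u : FN M) (hu : (u : LaurentSeries Kb) ∈ bigO π),
      TorsES.normAlong (heckeBetaBar Kb M q) f = algebraMap Kb (FN M) (c₂ * c₁ ^ q) * u ∧
      bigRed π ⟨(u : LaurentSeries Kb), hu⟩ =
        (((twoRed hqM π hπ).R₂.red ⟨f₂, h₂⟩ *
          FrobK.frobAut k q M • (twoRed hqM π hπ).R₁.red ⟨f₁, h₁⟩ : Fb k M) : LaurentSeries k)) := by
  obtain ⟨g₁, e₁⟩ := emb₁_mem_of_mem_R₁ hqM π hπ h₁
  obtain ⟨g₂, e₂⟩ := emb₂_mem_of_mem_R₂ hqM π hπ h₂
  refine ⟨?_, ?_⟩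
  · obtain ⟨u, hu, hN, hred⟩ := exists_normAlong_alpha_red hqM π hc₁ hc₂ hf₁ hf₂ g₁ g₂
    refine ⟨u, hu, hN, ?_⟩
    rw [hred, ← e₁, ← e₂]
    rfl
  · obtain ⟨u, hu, hN, hred⟩ := exists_normAlong_beta_red hqM π hc₁ hc₂ hf₁ hf₂ g₁ g₂
    refine ⟨u, hu, hN, ?_⟩
    rw [hred, ← e₁, ← e₂]
    rfl

end Two

end Modular

end Fermat.Agent.SS
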