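import Fermat.Agent.GAL.PC.GlueRaw
import Fermat.Agent.GAL.HeckeInputs
import Fermat.Agent.RED.S37.GalEq
import Fermat.Agent.RED.TorsESAbs

/-!
# SS / TOP-35, leaves [T35-PUSH*] : push-forward of divisor classes along the two degeneracy maps

`pushA`, `pushB : J₀(M q) → J₀(M)` are Galois equivariant, hence (Eichler-Shimura at both levels)
commute with the `T_ℓ` on `p`-power torsion.
-/

set_option autoImplicit false

noncomputable section

open AlgebraicCurve ModularCurve

namespace Fermat.Agent.SS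

open Fermat.Agent.RED Fermat.Agent.GAL Fermat.Agent.GAL.PC Fermat.Agent.GAL.HeckeInputs

local notation "Qbar" => AlgebraicClosure ℚ
local notation "GQ" => (AlgebraicClosure ℚ ≃ₐ[ℚ] AlgebraicClosure ℚ)

section AbsTower

variable {K F F' : Type*} [Field K] [Field F] [Field F']
  [Algebra K F] [Algebra K F'] [Algebra F F'] [IsScalarTower K F F']
  [Algebra.IsIntegral F F']

/-- the inertia degree is invariant under a pair of compatible ring automorphisms. -/
theorem inertiaDeg_eq_of_ringEquiv (w w' : Place K F') (e : F ≃+* F) (e' : F' ≃+* F')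
    (hee : ∀ x : F, e' (algebraMap F F' x) = algebraMap F F' (e x))
    (hw : ∀ y : F', y ∈ w.toValuationSubring ↔ e' y ∈ w'.toValuationSubring) :
    w.inertiaDeg F = w'.inertiaDeg F := by
  have hv : ∀ x : F, x ∈ (w.restrict F).toValuationSubring ↔
      e x ∈ (w'.restrict F).toValuationSubring := by
    intro x
    change algebraMap F F' x ∈ w.toValuationSubring ↔ algebraMap F F' (e x) ∈ w'.toValuationSubring
    rw [hw, hee]
  let j₀ : w.toValuationSubring ≃+* w'.toValuationSubring :=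
    { toFun := fun y => ⟨e' y, (hw y).1 y.2⟩
      invFun := fun y => ⟨e'.symm y, (hw _).2 (by rw [RingEquiv.apply_symm_apply]; exact y.2)⟩
      left_inv := fun y => by ext; simp
      right_inv := fun y => by ext; simp
      map_mul' := fun x y => by ext; simp
      map_add' := fun x y => by ext; simp }
  let i₀ : (w.restrict F).toValuationSubring ≃+* (w'.restrict F).toValuationSubring :=
    { toFun := fun y => ⟨e y, (hv y).1 y.2⟩
      invFun := fun y => ⟨e.symm y, (hv _).2 (by rw [RingEquiv.apply_symm_apply]; exact y.2)⟩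
      left_inv := fun y => by ext; simp
      right_inv := fun y => by ext; simp
      map_mul' := fun x y => Subtype.ext (map_mul e (x : F) (y : F))
      map_add' := fun x y => Subtype.ext (map_add e (x : F) (y : F)) }
  refine Algebra.finrank_eq_of_equiv_equiv (IsLocalRing.ResidueField.mapEquiv i₀)
    (IsLocalRing.ResidueField.mapEquiv j₀) ?_
  ext a
  obtain ⟨a, rfl⟩ := IsLocalRing.residue_surjective a
  simp only [RingHom.comp_apply, RingEquiv.toRingHom_eq_coe, RingEquiv.coe_toRingHom,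
    IsLocalRing.ResidueField.mapEquiv_apply, IsLocalRing.ResidueField.map_residue,
    Place.algebraMap_residueField_eq, Place.restrictResidueMap_residue]
  refine congrArg _ (Subtype.ext ?_)
  exact (hee a).symm

end AbsTower

section Abs

variable {K F F' : Type*} [Field K] [Field F] [Field F'] [Algebra K F] [Algebra K F']
variable (φ : F →ₐ[K] F') (hφ : φ.toRingHom.IsIntegral) (hfin : FiniteAlong K φ)
  (hN : NormFormulaAlong K φ hfin)

/-- push-forward of degree zero divisors -/
def pushDegZero : Divisor.degZero (K := K) (F := F') →+ Divisor.degZero (K := K) (F := F) :=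
  ((Divisor.pushforwardAlong φ hφ).domRestrict (Divisor.degZero (K := K) (F := F'))).codRestrict _
    (fun D => Divisor.pushforwardAlong_mem_degZero φ hφ D.2)

@[simp]
theorem coe_pushDegZero (D : Divisor.degZero (K := K) (F := F')) :
    (pushDegZero φ hφ D : Divisor K F) = Divisor.pushforwardAlong φ hφ (D : Divisor K F') :=
  rfl

/-- push-forward of divisor classes of degree zero -/
def pushPic0 : Pic0 K F' →+ Pic0 K F :=
  QuotientAddGroup.map _ _ (pushDegZero φ hφ) (by
    rintro ⟨D, hD0⟩ hD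
    simp only [AddSubgroup.mem_addSubgroupOf] at hD ⊢
    exact Divisor.isPrincipal_pushforwardAlong φ hφ hfin hN hD)

theorem pushPic0_mk (D : Divisor.degZero (K := K) (F := F')) :
    pushPic0 φ hφ hfin hN (Pic0.mk D) = Pic0.mk (pushDegZero φ hφ D) :=
  rfl

theorem inertiaDegAlong_smul {g : SemilinearAut K F} {g' : SemilinearAut K F'}
    (hg : SemilinearAut.IntertwinesAlong φ.toRingHom g g') (w : Place K F') :
    (g' • w).inertiaDegAlong φ hφ = w.inertiaDegAlong φ hφ := by
  letI := algebraAlong φ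
  haveI := isScalarTower_along φ
  haveI := isIntegral_along φ hφ
  refine (inertiaDeg_eq_of_ringEquiv w (g' • w) (SemilinearAut.toRingAut g)
    (SemilinearAut.toRingAut g') (fun x => hg x) (fun y => ?_)).symm
  rw [GalEq.mem_smul_place_iff]
  change y ∈ _ ↔ g'⁻¹ • (g' • y) ∈ _
  rw [inv_smul_smul]

/-- [T35-PUSH-GAL] push-forward of divisors commutes with semilinear automorphisms which are
intertwined by `φ`. -/
theorem pushforwardAlong_smul {g : SemilinearAut K F} {g' : SemilinearAut K F'}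
    (hg : SemilinearAut.IntertwinesAlong φ.toRingHom g g') (D : Divisor K F') :
    Divisor.pushforwardAlong φ hφ (g' • D) = g • Divisor.pushforwardAlong φ hφ D := by
  induction D using Finsupp.induction_linear with
  | zero => rw [smul_zero, map_zero, smul_zero]
  | add D E hD hE => rw [smul_add, map_add, hD, hE, map_add, smul_add]
  | single w n =>
    rw [SemilinearAut.smul_single, Divisor.pushforwardAlong_single,
      Divisor.pushforwardAlong_single, SemilinearAut.smul_single,
      GalEq.restrictAlong_smul φ hφ hg, inertiaDegAlong_smul φ hφ hg]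

theorem pushPic0_smul {g : SemilinearAut K F} {g' : SemilinearAut K F'}
    (hg : SemilinearAut.IntertwinesAlong φ.toRingHom g g') (x : Pic0 K F') :
    pushPic0 φ hφ hfin hN (g' • x) = g • pushPic0 φ hφ hfin hN x := by
  obtain ⟨D, rfl⟩ := Pic0.mk_surjective x
  rw [SemilinearAut.pic0_smul_mk, pushPic0_mk, pushPic0_mk, SemilinearAut.pic0_smul_mk]
  refine congrArg Pic0.mk (Subtype.ext ?_)
  rw [coe_pushDegZero, SemilinearAut.coe_degZeroSMulHom, SemilinearAut.coe_degZeroSMulHom,
    coe_pushDegZero]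
  exact pushforwardAlong_smul φ hφ hg _

/-- [T35-PUSH-KUM] Kummer form of `φ_* y = 0`: if `m D = div f` and `φ_* D` is principal then the
norm of `f` is a constant times an `m`-th power. -/
theorem exists_normAlong_eq_of_pushPic0_eq_zero [IsAlgClosed K] {x : F} (hx : IsSepParam K x)
    {m : ℕ} (hm : m ≠ 0) {D : Divisor.degZero (K := K) (F := F')} {f : F'}
    (hf : TorsES.IsDiv (m : ℤ) (D : Divisor K F') f)
    (h : pushPic0 φ hφ hfin hN (Pic0.mk D) = 0) :
    ∃ h : F, h ≠ 0 ∧ TorsES.normAlong φ f = h ^ m := by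
  rw [pushPic0_mk, TorsES.mk_eq_zero_iff] at h
  obtain ⟨h0, hh0, hD⟩ := h
  have hNf : TorsES.IsDiv (m : ℤ) (Divisor.pushforwardAlong φ hφ (D : Divisor K F'))
      (TorsES.normAlong φ f) := by
    letI := algebraAlong φ
    haveI := isScalarTower_along φ
    haveI := isIntegral_along φ hφ
    haveI : Module.Finite F F' := hfin
    refine ⟨Algebra.norm_ne_zero_iff.mpr hf.1, fun v => ?_⟩
    have h1 : ∀ w : Place K F', ((m : ℤ) • (D : Divisor K F')) w = w.ord f := fun w => by
      rw [Finsupp.smul_apply, smul_eq_mul, hf.2 w]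
    have h2 := hN f hf.1 ((m : ℤ) • (D : Divisor K F')) h1 v
    have h3 : Divisor.pushforward F ((m : ℤ) • (D : Divisor K F')) =
        (m : ℤ) • Divisor.pushforward F (D : Divisor K F') := map_zsmul _ _ _
    rw [h3, Finsupp.smul_apply, smul_eq_mul] at h2
    exact h2
  set N := TorsES.normAlong φ f with hNdef
  have hpow : h0 ^ m ≠ 0 := pow_ne_zero _ hh0
  have hord : ∀ P : Place K F, P.ord (N * (h0 ^ m)⁻¹) = 0 := by
    intro P
    rw [P.ord_mul hNf.1 (inv_ne_zero hpow), P.ord_inv, ← zpow_natCast, P.ord_zpow, ← hNf.2 P,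
      ← hD P, coe_pushDegZero]
    ring
  obtain ⟨c, hc⟩ := hx.mem_range_of_forall_ord_nonneg (f := N * (h0 ^ m)⁻¹)
    (fun v => (hord v).ge)
  obtain ⟨c0, hc0⟩ := IsAlgClosed.exists_pow_nat_eq c (Nat.pos_of_ne_zero hm)
  have hN : N = algebraMap K F c * h0 ^ m := by
    rw [hc, mul_assoc, inv_mul_cancel₀ hpow, mul_one]
  have hc00 : c0 ≠ 0 := by
    rintro rfl
    rw [zero_pow hm] at hc0
    rw [← hc0, map_zero, zero_mul] at hN
    exact hNf.1 hN
  refine ⟨algebraMap K F c0 * h0, mul_ne_zero (by rwa [Ne, map_eq_zero]) hh0, ?_⟩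
  rw [hN, mul_pow, ← map_pow, hc0]

end Abs

section Modular

variable (M q : ℕ) [NeZero M] [NeZero q]

/-- `α_* : J₀(M q) → J₀(M)` -/
def pushA : JZero (M * q) →+ JZero M :=
  pushPic0 (heckeAlphaBar Qbar M q) (heckeAlphaBarIntegral M q) (finiteAlong_alpha M q)
    (normFormulaAlong_alpha M q)

/-- `β_* : J₀(M q) → J₀(M)` -/
def pushB : JZero (M * q) →+ JZero M :=
  pushPic0 (heckeBetaBar Qbar M q) (heckeBetaBarIntegral M q) (finiteAlong_beta M q)
    (normFormulaAlong_beta M q)

theorem intertwines_heckeAlphaBar (σ : GQ) :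
    SemilinearAut.IntertwinesAlong (heckeAlphaBar Qbar M q).toRingHom
      (arithmeticGalois (modularFunctionFieldFull M) σ)
      (arithmeticGalois (modularFunctionFieldFull (M * q)) σ) := by
  intro x
  apply Subtype.ext
  show coeffMap (σ : Qbar →+* Qbar)
      ((heckeAlphaBar Qbar M q x : modularFunctionFieldBar (M * q)) : LaurentSeries Qbar) =
    ((heckeAlphaBar Qbar M q (arithmeticGalois (modularFunctionFieldFull M) σ • x) :
      modularFunctionFieldBar (M * q)) : LaurentSeries Qbar)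
  rw [coe_heckeAlphaBar, coe_heckeAlphaBar]
  rfl

theorem pushA_smul (σ : GQ) (x : JZero (M * q)) : pushA M q (σ • x) = σ • pushA M q x := by
  rw [galois_smul_pic0_def, galois_smul_pic0_def]
  exact pushPic0_smul _ _ _ _ (intertwines_heckeAlphaBar M q σ) x

theorem pushB_smul (σ : GQ) (x : JZero (M * q)) : pushB M q (σ • x) = σ • pushB M q x := by
  rw [galois_smul_pic0_def, galois_smul_pic0_def]
  exact pushPic0_smul _ _ _ _ (intertwines_heckeBetaBar M q σ) x

variable {M q} {p : ℕ}

/-- On `p`-power torsion `T_ℓ = φ + ℓ φ⁻¹` for EVERY Frobenius lift `φ`. -/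
theorem hecke_eq_frob' {N : ℕ} [NeZero N] (hQ : ESQuad N p) (L : Nat.Primes)
    (hℓNp : ¬ (L : ℕ) ∣ N * p) {A : ValuationSubring Qbar} (hA : A.LiesOverPrime L) {φ : GQ}
    (hφ : A.IsFrobeniusAt φ L) (x : JZero N) (hx : x ∈ ptors (JZero N) p) :
    heckeOperatorBar N L x = φ • x + (L : ℕ) • (φ⁻¹ • x) := by
  have h1 : φ • φ • φ⁻¹ • x - heckeOperatorBar N L (φ • φ⁻¹ • x) + (L : ℕ) • φ⁻¹ • x = 0 :=
    hQ L L.2 hℓNp A hA φ hφ (φ⁻¹ • x) (smul_mem_ptors φ⁻¹ hx)
  rw [smul_inv_smul] at h1
  have h2 : φ • x + (L : ℕ) • φ⁻¹ • x - heckeOperatorBar N L x = 0 := by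
    rw [← h1]; abel
  exact (sub_eq_zero.mp h2).symm

theorem map_mem_ptors' {J J' : Type*} [AddCommGroup J] [AddCommGroup J'] (u : J →+ J') {x : J}
    (hx : x ∈ ptors J p) : u x ∈ ptors J' p := by
  obtain ⟨n, hn⟩ := hx
  exact ⟨n, by rw [← map_nsmul, hn, map_zero]⟩

/-- [T35-PUSH-HECKE] a Galois equivariant homomorphism commutes with `T_ℓ` on `p`-power torsion. -/
theorem map_hecke_of_equivariant {N N' : ℕ} [NeZero N] [NeZero N'] (hQ : ESQuad N p)
    (hQ' : ESQuad N' p) (u : JZero N →+ JZero N') (hu : ∀ (σ : GQ) x, u (σ • x) = σ • u x)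
    (L : Nat.Primes) (h : ¬ (L : ℕ) ∣ N * p) (h' : ¬ (L : ℕ) ∣ N' * p) (x : JZero N)
    (hx : x ∈ ptors (JZero N) p) :
    u (heckeOperatorBar N L x) = heckeOperatorBar N' L (u x) := by
  obtain ⟨A, hA⟩ := Fermat.Agent.S54.exists_liesOverPrime L.2
  obtain ⟨φ, hφ⟩ := Fermat.Agent.S54.exists_isFrobeniusAt_of_liesOverPrime L.2 A hA
  rw [hecke_eq_frob' hQ L h hA hφ x hx, hecke_eq_frob' hQ' L h' hA hφ (u x) (map_mem_ptors' u hx),
    map_add, map_nsmul, hu, hu]

/-- the restriction of a homomorphism to the `p`-power torsion -/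
def ptorsMap {J J' : Type*} [AddCommGroup J] [AddCommGroup J'] (p : ℕ) (u : J →+ J') :
    ptors J p →+ ptors J' p :=
  (u.comp (ptors J p).subtype).codRestrict _ (fun x => map_mem_ptors' u x.2)

@[simp] theorem coe_ptorsMap {J J' : Type*} [AddCommGroup J] [AddCommGroup J'] (u : J →+ J')
    (x : ptors J p) : ((ptorsMap p u x : ptors J' p) : J') = u x := rfl

/-- a homomorphism which commutes with the generators commutes with polynomials -/
theorem map_poly_of_map_gen {X X' : Type*} [AddCommGroup X] [AddCommGroup X'] (v : X →+ X')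
    (T : ℕ → Module.End ℤ X) (T' : ℕ → Module.End ℤ X') (h : ∀ ℓ x, v (T ℓ x) = T' ℓ (v x))
    (f : MvPolynomial ℕ ℤ →+* Module.End ℤ X) (hf : ∀ ℓ, f (MvPolynomial.X ℓ) = T ℓ)
    (f' : MvPolynomial ℕ ℤ →+* Module.End ℤ X') (hf' : ∀ ℓ, f' (MvPolynomial.X ℓ) = T' ℓ)
    (t : MvPolynomial ℕ ℤ) (x : X) : v (f t x) = f' t (v x) := by
  induction t using MvPolynomial.induction_on generalizing x with
  | C a =>
    rw [eq_intCast (MvPolynomial.C : ℤ →+* MvPolynomial ℕ ℤ) a, map_intCast, map_intCast,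
      Module.End.intCast_apply, Module.End.intCast_apply, map_zsmul]
  | add P Q hP hQ => rw [map_add, map_add, LinearMap.add_apply, LinearMap.add_apply, map_add, hP, hQ]
  | mul_X P ℓ hP =>
    rw [map_mul, map_mul, Module.End.mul_apply, Module.End.mul_apply, hP, hf, hf', h]

theorem map_zero_end {X X' : Type*} [AddCommGroup X] [AddCommGroup X'] (v : X →+ X')
    {T : Module.End ℤ X} {T' : Module.End ℤ X'} (h : T = 0) (h' : T' = 0) (x : X) :
    v (T x) = T' (v x) := by
  rw [h, h', LinearMap.zero_apply, LinearMap.zero_apply, map_zero]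

/-- [T35-PUSH-POLY] a Galois equivariant homomorphism commutes with polynomials in the `T_ℓ`,
`ℓ ∉ S`. -/
theorem map_poly_of_equivariant {N N' : ℕ} [NeZero N] [NeZero N'] (hQ : ESQuad N p)
    (hQ' : ESQuad N' p) (u : JZero N →+ JZero N') (hu : ∀ (σ : GQ) x, u (σ • x) = σ • u x)
    (S : Set ℕ) (hS : ∀ ℓ : ℕ, ℓ.Prime → ℓ ∉ S → ¬ ℓ ∣ N * p ∧ ¬ ℓ ∣ N' * p)
    (f : MvPolynomial ℕ ℤ →+* Module.End ℤ (ptors (JZero N) p))
    (hf : ∀ ℓ, f (MvPolynomial.X ℓ) = Tp N p S ℓ)
    (f' : MvPolynomial ℕ ℤ →+* Module.End ℤ (ptors (JZero N') p))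
    (hf' : ∀ ℓ, f' (MvPolynomial.X ℓ) = Tp N' p S ℓ)
    (t : MvPolynomial ℕ ℤ) (x : ptors (JZero N) p) :
    ptorsMap p u (f t x) = f' t (ptorsMap p u x) := by
  refine map_poly_of_map_gen (ptorsMap p u) (Tp N p S) (Tp N' p S) ?_ f hf f' hf' t x
  intro ℓ x
  by_cases h : ℓ.Prime ∧ ℓ ∉ S
  · rw [Tp_of_good h.1 h.2, Tp_of_good h.1 h.2]
    apply Subtype.ext
    rw [coe_ptorsMap, coe_restrictPtors, coe_restrictPtors, coe_ptorsMap]
    exact map_hecke_of_equivariant hQ hQ' u hu ⟨ℓ, h.1⟩ (hS ℓ h.1 h.2).1 (hS ℓ h.1 h.2).2 x.1 x.2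
  · exact map_zero_end (ptorsMap p u) (Tp_of_bad h) (Tp_of_bad h) x

end Modular

end Fermat.Agent.SS
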