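import Fermat.Agent.SS.Top35.Raw
import Fermat.Agent.SS.Top35.Push
import Fermat.Agent.SS.Top35.OldKill
import Fermat.Agent.SS.Top35.SMO

/-!
# SS / TOP-35 : the interfaces `SteinGeo`, `STEIN`
-/

set_option autoImplicit false

noncomputable section

open AlgebraicCurve ModularCurve CongruenceSubgroup

namespace Fermat.Agent.SS

open Fermat.Agent.GAL Fermat.Agent.GAL.PC

local notation "Qbar" => AlgebraicClosure ℚ
local notation "GQ" => (AlgebraicClosure ℚ ≃ₐ[ℚ] AlgebraicClosure ℚ)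

/-- **Interface (STEINGEO)**, the geometric input of S35: on the `p`-power torsion classes of
`J₀(M q)` (`q ∤ M`) which die in `J₀(M)` under both push-forwards, a Frobenius lift `σ` at `q`
satisfies `(σ² - 1)(σ² - q²) = 0`. -/
def SteinGeo (M q p : ℕ) [NeZero M] [NeZero q] : Prop :=
  ∀ A : ValuationSubring Qbar, A.LiesOverPrime q → ∀ σ : GQ, A.IsFrobeniusAt σ q →
    ∀ y : JZero (M * q), (∃ n : ℕ, p ^ n • y = 0) → pushA M q y = 0 → pushB M q y = 0 →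
      σ • σ • σ • σ • y - (q ^ 2 + 1) • σ • σ • y + q ^ 2 • y = 0

/-- **Interface (STEIN)**: the Steinberg relation on the image of the Hecke operator `t₀`. -/
def STEIN (N p q : ℕ) [NeZero N] (S : Set ℕ) (t₀ : MvPolynomial ℕ ℤ) : Prop :=
  ∀ A : ValuationSubring Qbar, A.LiesOverPrime q → ∀ σ : GQ, A.IsFrobeniusAt σ q →
    ∀ f : MvPolynomial ℕ ℤ →+* Module.End ℤ (ptors (JZero N) p),
      (∀ ℓ, f (MvPolynomial.X ℓ) = Tp N p S ℓ) → ∀ x : ptors (JZero N) p,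
        σ • σ • σ • σ • f t₀ x - (q ^ 2 + 1) • σ • σ • f t₀ x + q ^ 2 • f t₀ x = 0

/-- (STEIN) from (STEINGEO), for a Hecke operator which kills the level `M`. -/
theorem stein_of_steinGeo {M q p : ℕ} [NeZero M] [NeZero q] (hp : p.Prime)
    (hGeo : SteinGeo M q p) (S : Set ℕ)
    (hS : ∀ ℓ : ℕ, ℓ.Prime → ℓ ∉ S → ¬ ℓ ∣ M * q * p)
    (t₀ : MvPolynomial ℕ ℤ) (ht₀ : MvPolynomial.aeval (heckeT M S) t₀ = 0) :
    STEIN (M * q) p q S t₀ := by
  intro A hA σ hσ f hf x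
  have hS1 : ∀ ℓ : ℕ, ℓ.Prime → ℓ ∉ S → ¬ ℓ ∣ M * p := fun ℓ hℓ hℓS hd => by
    apply hS ℓ hℓ hℓS
    rcases (Nat.Prime.dvd_mul hℓ).mp hd with h | h
    · exact (h.mul_right q).mul_right p
    · exact h.mul_left _
  have hS2 : ∀ ℓ : ℕ, ℓ.Prime → ℓ ∉ S → ¬ ℓ ∣ M := fun ℓ hℓ hℓS hd =>
    hS1 ℓ hℓ hℓS (hd.mul_right p)
  obtain ⟨f', hf'⟩ := exists_ringHom_of_commute (Tp M p S)
    (Tp_comm (galHecke M) (es_all M p).2 hS1)
  have key : ∀ (u : JZero (M * q) →+ JZero M), (∀ (σ : GQ) x, u (σ • x) = σ • u x) →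
      u (f t₀ x : ptors (JZero (M * q)) p) = 0 := by
    intro u hu
    have h1 := map_poly_of_equivariant (es_all (M * q) p).2 (es_all M p).2 u hu S
      (fun ℓ hℓ hℓS => ⟨hS ℓ hℓ hℓS, hS1 ℓ hℓ hℓS⟩) f hf f' hf' t₀ x
    rw [oldKill hp S hS2 f' hf' t₀ ht₀] at h1
    exact congrArg Subtype.val h1
  have h := hGeo A hA σ hσ (f t₀ x : ptors (JZero (M * q)) p) (f t₀ x).2
    (key _ (pushA_smul M q)) (key _ (pushB_smul M q))
  exact Subtype.ext h

end Fermat.Agent.SS
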