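import Fermat.Agent.SS.Top35.SteinKum
import Fermat.Agent.SS.Top35.NormQ
import Fermat.Agent.SS.Top35.NormBC
import Fermat.Agent.SS.Top35.Stein
import Fermat.Agent.SS.Desc

/-!
# SS / TOP-35 : (STEINGEO) at all levels

* `normRedA`, `normRedB` : the interfaces of `SteinKum.lean` from `twoRed_norm_red`;
* `SteinKum M q p` : the Kummer form of (STEINGEO); `steinKum_rigid`;
* `steinKum_desc` : descent of (STEINKUM) from the rigid level `M₁ c`, `c = 4, 9`;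
* `steinGeo_of_steinKum` : (STEINGEO) from its Kummer form;
* `steinGeo_all`.
-/

set_option autoImplicit false
set_option linter.unusedSectionVars false
set_option linter.style.haveILetI false

noncomputable section

open AlgebraicCurve ModularCurve

namespace Fermat.Agent.SS

open Fermat.Agent.RED hiding Kb
open Fermat.Agent.RED.Gauss Fermat.Agent.S24
open Fermat.Agent.RED.Cusp (Fb jb)

section NormRed

variable {M q : ℕ} [NeZero M] [hq : Fact q.Prime] (hqM : ¬ q ∣ M)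
variable {A : ValuationSubring Kb} {k : Type*} [Field k]
variable (π : A →+* k) [CharP k q] [IsAlgClosed k] (hπ : Function.Surjective π)

theorem ne_zero_of_red_ne_zero {K F k Fb : Type*} [Field K] [Field F] [Algebra K F] [Field k]
    [Field Fb] [Algebra k Fb] (R : RedData K F k Fb) {c : K} {f : F}
    (h : algebraMap K F c * f ∈ R.O) (hr : R.red ⟨_, h⟩ ≠ 0) : c ≠ 0 := by
  rintro rfl
  apply hr
  have : (⟨algebraMap K F 0 * f, h⟩ : R.O) = 0 := Subtype.ext (by simp)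
  rw [this, map_zero]

theorem eq_inv_mul {K F : Type*} [Field K] [Field F] [Algebra K F] {c : K} (hc : c ≠ 0) (f : F) :
    f = algebraMap K F c⁻¹ * (algebraMap K F c * f) := by
  rw [← mul_assoc, ← map_mul, inv_mul_cancel₀ hc, map_one, one_mul]

theorem normRedA : NormRedA hqM π hπ := by
  intro f c₁ c₂ h₁ h₂ hr₁ hr₂
  have hc₁ := ne_zero_of_red_ne_zero _ h₁ hr₁
  have hc₂ := ne_zero_of_red_ne_zero _ h₂ hr₂
  obtain ⟨⟨u, hu, hN, hred⟩, -⟩ := twoRed_norm_red hqM π hπ (inv_ne_zero hc₁) (inv_ne_zero hc₂)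
    (eq_inv_mul hc₁ f) (eq_inv_mul hc₂ f) h₁ h₂
  have e : algebraMap Kb (FN M) (c₁ * c₂ ^ q) * TorsES.normAlong (heckeAlphaBar Kb M q) f = u := by
    rw [hN, ← mul_assoc, ← map_mul]
    have : c₁ * c₂ ^ q * (c₁⁻¹ * c₂⁻¹ ^ q) = 1 := by
      rw [inv_pow]
      field_simp
    rw [this, map_one, one_mul]
  rw [e]
  exact ⟨hu, hred⟩

theorem normRedB : NormRedB hqM π hπ := by
  intro f c₁ c₂ h₁ h₂ hr₁ hr₂
  have hc₁ := ne_zero_of_red_ne_zero _ h₁ hr₁
  have hc₂ := ne_zero_of_red_ne_zero _ h₂ hr₂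
  obtain ⟨-, ⟨u, hu, hN, hred⟩⟩ := twoRed_norm_red hqM π hπ (inv_ne_zero hc₁) (inv_ne_zero hc₂)
    (eq_inv_mul hc₁ f) (eq_inv_mul hc₂ f) h₁ h₂
  have e : algebraMap Kb (FN M) (c₂ * c₁ ^ q) * TorsES.normAlong (heckeBetaBar Kb M q) f = u := by
    rw [hN, ← mul_assoc, ← map_mul]
    have : c₂ * c₁ ^ q * (c₂⁻¹ * c₁⁻¹ ^ q) = 1 := by
      rw [inv_pow]
      field_simp
    rw [this, map_one, one_mul]
  rw [e]
  exact ⟨hu, hred⟩

end NormRed

/-- **Interface (STEINKUM)**, the Kummer form of (STEINGEO): if `p ^ n D = div f` and the two norms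
of `f` are `p ^ n`-th powers, then a Frobenius lift `σ` at `q` satisfies
`(σ² - 1)(σ² - q²) [D] = 0`. -/
def SteinKum (M q p : ℕ) [NeZero M] [NeZero q] : Prop :=
  ∀ A : ValuationSubring Kb, A.LiesOverPrime q → ∀ σ : GQ, A.IsFrobeniusAt σ q →
    ∀ (n : ℕ) (D : Divisor.degZero (K := Kb) (F := FN (M * q))) (f : FN (M * q)),
      TorsES.IsDiv ((p ^ n : ℕ) : ℤ) (D : Divisor Kb (FN (M * q))) f →
      (∃ h : FN M, TorsES.normAlong (heckeAlphaBar Kb M q) f = h ^ (p ^ n)) →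
      (∃ h : FN M, TorsES.normAlong (heckeBetaBar Kb M q) f = h ^ (p ^ n)) →
      σ • σ • σ • σ • (Pic0.mk D : JZero (M * q)) - (q ^ 2 + 1) • σ • σ • (Pic0.mk D : JZero (M * q))
        + q ^ 2 • (Pic0.mk D : JZero (M * q)) = 0

/-- (STEINKUM) at the rigid levels. -/
theorem steinKum_rigid {M q : ℕ} [NeZero M] [hq : Fact q.Prime] (hqM : ¬ q ∣ M)
    (h49 : 4 ∣ M ∨ 9 ∣ M) {p : ℕ} (hp : p.Prime) (hpq : p ≠ q) : SteinKum M q p := by
  intro A hA σ hσ n D f hf ⟨h, hh⟩ ⟨h', hh'⟩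
  haveI : IsAlgClosed (IsLocalRing.ResidueField A) := GalEq.isAlgClosed_residueField A
  haveI : CharP (IsLocalRing.ResidueField A) q := GalEq.charP_residueField hq.out hA
  exact steinKum hqM A h49 hA (normRedA hqM _ _) (normRedB hqM _ _) hp hpq n hσ hf hh hh'

/-- the pull-back `B^* : J₀(N) → J₀(N')`, `N' = N c`, packaged without casts of levels. -/
theorem exists_pull (N c N' : ℕ) [NeZero N] [NeZero c] [NeZero N'] (hc : c = 4 ∨ c = 9)
    (hN' : N' = N * c) :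
    ∃ B : JZero N →+ JZero N', (∀ (σ : GQ) (x : JZero N), B (σ • x) = σ • B x) ∧
      (∀ m : ℕ, m ≠ 0 → ∀ x : JZero N, m • x = 0 → B x = 0 → x = 0) ∧
      (∀ (m : ℤ) (D : Divisor.degZero (K := Kb) (F := FN N)) (f : FN N),
        TorsES.IsDiv m (D : Divisor Kb (FN N)) f →
        ∃ (D' : Divisor.degZero (K := Kb) (F := FN N')) (f' : FN N'),
          B (Pic0.mk D) = Pic0.mk D' ∧ TorsES.IsDiv m (D' : Divisor Kb (FN N')) f' ∧
            (f' : LaurentSeries Kb) = qExpand Kb c (f : LaurentSeries Kb)) := by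
  subst hN'
  have hB := heckeInputsAlong' N c
  haveI := hB.snd.snd.fst
  refine ⟨Bstar N c hB, Bstar_smul N c hB,
    fun m hm x hmx hx => Bstar_eq_zero_of_torsion N c hc hB x m hm hmx hx, fun m D f hf => ?_⟩
  exact ⟨pullDegZero (heckeBetaBar Kb N c) hB.snd.fst hB.snd.snd.snd.snd.1 D,
    heckeBetaBar Kb N c f, rfl, hf.pullbackAlong (heckeBetaBar Kb N c) hB.snd.fst,
    coe_heckeBetaBar N c f⟩

/-- **[T35-DESC]** descent of (STEINKUM) from the level `M₁ c`, `c = 4, 9`. -/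
theorem steinKum_desc {M₁ q c : ℕ} [NeZero M₁] [hq : Fact q.Prime] [NeZero c]
    (hc : c = 4 ∨ c = 9) (hqM : ¬ q ∣ M₁ * c) {p : ℕ} (hp : p ≠ 0)
    (H : SteinKum (M₁ * c) q p) : SteinKum M₁ q p := by
  intro A hA σ hσ n D f hf ⟨h, hh⟩ ⟨h', hh'⟩
  obtain ⟨B, hBσ, hBinj, hBdiv⟩ := exists_pull (M₁ * q) c (M₁ * c * q) hc (Nat.mul_right_comm _ _ _)
  obtain ⟨D', f', hD', hf', hcoe⟩ := hBdiv _ D f hf
  have hm : p ^ n ≠ 0 := pow_ne_zero _ hp
  have hy : p ^ n • (Pic0.mk D : JZero (M₁ * q)) = 0 := by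
    rw [← TorsES.mk_nsmul', TorsES.mk_eq_zero_iff]
    refine ⟨f, hf.1, fun P => ?_⟩
    rw [← hf.2 P]
    simp
  have key := H A hA σ hσ n D' f' hf'
    ⟨heckeBetaBar Kb M₁ c h, Subtype.ext (by
      rw [normAlong_alpha_bc M₁ c q hqM f f' hcoe, hh]
      push_cast
      rw [map_pow, coe_heckeBetaBar])⟩
    ⟨heckeBetaBar Kb M₁ c h', Subtype.ext (by
      rw [normAlong_beta_bc M₁ c q hqM f f' hcoe, hh']
      push_cast
      rw [map_pow, coe_heckeBetaBar])⟩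
  rw [← hD', ← hBσ, ← hBσ, ← hBσ, ← hBσ, ← map_nsmul, ← map_nsmul, ← map_sub, ← map_add] at key
  refine hBinj (p ^ n) hm _ ?_ key
  have h1 : ∀ z : JZero (M₁ * q), p ^ n • z = 0 → p ^ n • (σ • z) = 0 := fun z hz => by
    rw [smul_comm (p ^ n) σ z, hz, smul_zero]
  rw [nsmul_add, nsmul_sub, h1 _ (h1 _ (h1 _ (h1 _ hy))), nsmul_left_comm, h1 _ (h1 _ hy),
    nsmul_left_comm, hy]
  simp

/-- (STEINGEO) from its Kummer form. -/
theorem steinGeo_of_steinKum {M q p : ℕ} [NeZero M] [NeZero q] (hp : p ≠ 0)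
    (H : SteinKum M q p) : SteinGeo M q p := by
  intro A hA σ hσ y ⟨n, hn⟩ hyA hyB
  obtain ⟨D, rfl⟩ := Pic0.mk_surjective y
  obtain ⟨f, hf⟩ := TorsES.exists_isDiv_of_nsmul_eq_zero hn
  have hm : p ^ n ≠ 0 := pow_ne_zero _ hp
  obtain ⟨h, -, hh⟩ := exists_normAlong_eq_of_pushPic0_eq_zero _ _ _ _
    (RB.isSepParam_jF M) hm hf hyA
  obtain ⟨h', -, hh'⟩ := exists_normAlong_eq_of_pushPic0_eq_zero _ _ _ _
    (RB.isSepParam_jF M) hm hf hyB
  exact H A hA σ hσ n D f hf ⟨h, hh⟩ ⟨h', hh'⟩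

/-- **(STEINGEO)** at all levels. -/
theorem steinGeo_all (M₁ q p : ℕ) [NeZero M₁] [NeZero q] (hq : q.Prime) (hp : p.Prime)
    (hqp : q ≠ p) (hqM₁ : ¬ q ∣ M₁) : SteinGeo M₁ q p := by
  haveI : Fact q.Prime := ⟨hq⟩
  have hqM : ¬ q ∣ M₁ * aux q := not_dvd_mul_aux hq hqM₁
  refine steinGeo_of_steinKum hp.ne_zero (steinKum_desc (aux_eq q) hqM hp.ne_zero ?_)
  refine steinKum_rigid hqM ?_ hp hqp.symm
  rcases aux_eq q with h | h <;> rw [h] <;> simp

end Fermat.Agent.SS
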