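import Fermat.Agent.SS.Mod.S34Wire
import Fermat.Agent.SS.Mod.CuspOrdC

/-!
# SS / TOP-35 : [T35-COMPATF]  the square of a Frobenius lift is compatible with the nodal datum

`σ` a Frobenius lift at `A ∣ q`.  Then `g_{σ²}` preserves the two reductions, induces the
coefficientwise `q²`-Frobenius `Φ` on `Fb`, and `Φ` fixes the nodes (which are "supersingular
points", defined over `𝔽_{q²}`).  Consequence ((Z) of the abstract part): `σ²` acts on the toric
classes by `q²`.
-/

set_option autoImplicit false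
set_option linter.unusedSectionVars false
set_option linter.style.haveILetI false

noncomputable section

open AlgebraicCurve ModularCurve IsLocalRing

namespace Fermat.Agent.SS

open Fermat.Agent.RED hiding Kb
open Fermat.Agent.S24
open Fermat.Agent.RED.Cusp (Fb jb)

section Nodes

variable {M q : ℕ} [NeZero M] [hq : Fact q.Prime] (hqM : ¬ q ∣ M)
variable {k : Type*} [Field k] [CharP k q] [IsAlgClosed k]

theorem coeffAut_smul_jb (τ : k ≃+* k) : coeffAut k M τ • jb k M = jb k M :=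
  Subtype.ext (coeffMap_jqModC (τ : k →+* k))

/-- `Fr² (Φ w) = w ^ (q²)`, `Φ` the coefficientwise `q²`-Frobenius -/
theorem FrAlg_FrAlg_coeffAut (τ : k ≃+* k) (hτ : ∀ c, τ c = c ^ (q ^ 2)) (w : Fb k M) :
    FrAlg M q k (FrAlg M q k (coeffAut k M τ • w)) = w ^ (q ^ 2) := by
  apply Subtype.ext
  show qExpand k q (qExpand k q (coeffMap (τ : k →+* k) (w : LaurentSeries k))) =
    (w : LaurentSeries k) ^ (q ^ 2)
  rw [sq, pow_mul, FrobK.pow_char_eq k q, FrobK.pow_char_eq k q, coeffMap_qExpand,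
    coeffMap_coeffMap]
  congr 2
  refine coeffMap_congr (RingHom.ext fun c => ?_) _
  show τ c = frobenius k q (frobenius k q c)
  rw [hτ, frobenius_def, frobenius_def, ← pow_mul, sq]

include hqM in
/-- a place off the cusps whose evaluation is invariant under `Fr²` is fixed by the coefficientwise
`q²`-Frobenius -/
theorem coeffAut_smul_place_eq (τ : k ≃+* k) (hτ : ∀ c, τ c = c ^ (q ^ 2))
    (Q : Place k (Fb k M)) (hQ : polarDiv k (jb k M) Q = 0)
    (hFr : ∀ (u : affRing k (jb k M)) (c : k), HasVal Q (u : Fb k M) c →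
      HasVal Q (FrAlg M q k (FrAlg M q k (u : Fb k M))) c) :
    coeffAut k M τ • Q = Q := by
  have hs := sep_jb (k := k) hqM
  set Φ := coeffAut k M τ with hΦ
  have hP : Φ • polarDiv k (jb k M) = polarDiv k (jb k M) :=
    smul_polarDiv_of_smul_eq hs Φ (coeffAut_smul_jb τ)
  have hP' : Φ⁻¹ • polarDiv k (jb k M) = polarDiv k (jb k M) := by
    rw [inv_smul_eq_iff, hP]
  have hQ' : polarDiv k (jb k M) (Φ • Q) = 0 := by
    have := SemilinearAut.divisor_smul_apply_smul Φ (polarDiv k (jb k M)) Q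
    rw [hP] at this
    rw [this, hQ]
  refine (place_eq_of_hasVal hs hQ hQ' ?_).symm
  rintro ⟨u, n, hu⟩ c hc
  -- `w = Φ⁻¹ u`
  have hw : Φ⁻¹ • u ∈ riemannRochSpace (n • polarDiv k (jb k M)) := by
    have := NodalData.ws_smul_mem_L Φ⁻¹ hu
    rwa [smul_comm, hP'] at this
  have hnQ : (n • polarDiv k (jb k M)) Q = 0 := by
    rw [Finsupp.smul_apply, hQ, smul_zero]
  obtain ⟨d, hd⟩ := exists_hasVal_of_mem_L Q hs hnQ hw
  have h1 := hd.smul_aut Φ
  rw [smul_inv_smul] at h1
  have h2 : HasVal Q (FrAlg M q k (FrAlg M q k u)) c := hFr ⟨u, n, hu⟩ c hc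
  have h3 : FrAlg M q k (FrAlg M q k u) = (Φ⁻¹ • u) ^ (q ^ 2) := by
    rw [← FrAlg_FrAlg_coeffAut τ hτ (Φ⁻¹ • u), ← hΦ, smul_inv_smul]
  rw [h3] at h2
  have h4 : c = d ^ (q ^ 2) := h2.unique (hd.pow _)
  have h5 : SemilinearAut.baseAut Φ d = d ^ (q ^ 2) := hτ d
  rw [h5, ← h4] at h1
  exact h1

end Nodes

section Main

variable {M q : ℕ} [NeZero M] [hq : Fact q.Prime] (hqM : ¬ q ∣ M)
variable (A : ValuationSubring Kb) [CharP (ResidueField A) q] [IsAlgClosed (ResidueField A)]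

theorem mul_self_mem_decomposition {σ : GQ} (hσ : A.IsFrobeniusAt σ q) :
    σ * σ ∈ A.decompositionSubgroup ℚ :=
  mul_mem hσ.mem_decompositionSubgroup hσ.mem_decompositionSubgroup

theorem resAut_mul_self {σ : GQ} (hσ : A.IsFrobeniusAt σ q) (c : ResidueField A) :
    resAut A (σ * σ) (mul_self_mem_decomposition A hσ) c = c ^ (q ^ 2) := by
  rw [resAut_apply]
  have h : (⟨σ * σ, mul_self_mem_decomposition A hσ⟩ : A.decompositionSubgroup ℚ) =
      ⟨σ, hσ.mem_decompositionSubgroup⟩ * ⟨σ, hσ.mem_decompositionSubgroup⟩ := rfl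
  rw [h, mul_smul, hσ.smul_residue_eq, hσ.smul_residue_eq, ← pow_mul, sq]

/-- **[T35-COMPATF]** a nodal datum at the rigid level `M * q`, compatible with the inertia group
(inducing the identity) and with the squares of the Frobenius lifts (inducing the coefficientwise
`q²`-Frobenius). -/
theorem exists_nodalData_compat (h49 : 4 ∣ M ∨ 9 ∣ M) (hA : A.LiesOverPrime q) :
    ∃ 𝒩 : NodalData (twoRed hqM (IsLocalRing.residue A) IsLocalRing.residue_surjective),
      (∀ σ : GQ, σ ∈ A.inertiaSubgroupIn ℚ → IsCompat 𝒩 (gal (M * q) σ) 1) ∧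
      (∀ (σ : GQ) (hσ : A.IsFrobeniusAt σ q), IsCompat 𝒩 (gal (M * q) (σ * σ))
        (coeffAut (ResidueField A) M (resAut A (σ * σ) (mul_self_mem_decomposition A hσ)))) := by
  obtain ⟨n₀, hl⟩ := exists_lift_twoRed hqM (IsLocalRing.residue A)
    IsLocalRing.residue_surjective h49
  obtain ⟨𝒩, hP, hoff, hF1, hF2⟩ := (kronData hqM (IsLocalRing.residue A)
    IsLocalRing.residue_surjective (cuspOrd M q) n₀ hl).exists_nodalData
    (fun π c hc0 hπ hπ' => by
      rw [twoRed_A] at hπ hπ' ⊢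
      exact arch_of_liesOverPrime A hq.out hA π c hc0 hπ hπ')
  refine ⟨𝒩, fun σ hσ => isCompat_of_mem_inertia hqM A hσ 𝒩 hP, fun σ hσ => ?_⟩
  exact isCompat_of_mem_decomposition hqM A (mul_self_mem_decomposition A hσ) 𝒩 hP
    (fun s => coeffAut_smul_place_eq hqM _ (resAut_mul_self A hσ) (𝒩.x₁ s) (hoff s).1 (hF1 s))
    (fun s => coeffAut_smul_place_eq hqM _ (resAut_mul_self A hσ) (𝒩.x₂ s) (hoff s).2 (hF2 s))

/-- **(Z) for Frobenius**: `σ²` acts on the toric classes by `q²`. -/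
theorem frob_sq_smul_of_isToric (h49 : 4 ∣ M ∨ 9 ∣ M) (hA : A.LiesOverPrime q) {p : ℕ}
    (hp : p.Prime) (hpq : p ≠ q) (e : ℕ) {σ : GQ} (hσ : A.IsFrobeniusAt σ q)
    {y : Pic0 Kb (FN (M * q))}
    (hy : IsToric (twoRed hqM (IsLocalRing.residue A) IsLocalRing.residue_surjective) (p ^ e) y) :
    gal (M * q) (σ * σ) • y = q ^ 2 • y := by
  obtain ⟨𝒩, -, hF⟩ := exists_nodalData_compat hqM A h49 hA
  have hpk : (p : ResidueField A) ≠ 0 := by
    intro h0
    have := (CharP.cast_eq_zero_iff (ResidueField A) q p).1 h0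
    exact hpq ((Nat.prime_dvd_prime_iff_eq hq.out hp).1 this).symm
  exact smul_eq_nsmul_of_isToric 𝒩 (RB.isSepParam_jF (M * q))
    (Cusp.isSepParam_jb M (ResidueField A) q hqM) hp hpk e (hF σ hσ) (q ^ 2)
    (fun ζ _ => resAut_mul_self A hσ ζ) hy

end Main

end Fermat.Agent.SS
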