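import Fermat.Agent.SS.Top35.SMO

/-!
# SS / TOP-35, leaf [T35-OLDS]

A character of the Hecke algebra away from `S` is the eigensystem of a normalised eigenform, and
the existence of a Hecke operator away from `S` which kills the level `M / q` but not the form `g`.
-/

set_option autoImplicit false

noncomputable section

open ModularCurve CongruenceSubgroup ModularFormClass

namespace Fermat.Agent.SS

open Fermat.Agent.GAL Fermat.Agent.GAL.PC Fermat.Agent.S49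

/-- [T35-OLDS-EIG] a system of eigenvalues away from `S` which factors through the Hecke algebra
of level `N` is the system of eigenvalues of a normalised eigenform of level `N`. -/
theorem exists_eigenform_of_ringHom' {N : ℕ} [NeZero N] (S : Set ℕ)
    (χ : CuspForm.heckeAlgebra N 2 S →+* ℂ) :
    ∃ f : CuspForm (Gamma0 N) 2, f.IsNormalizedEigenform ∧
      ∀ (ℓ : ℕ) (hℓ : ℓ.Prime) (hℓN : ¬ ℓ ∣ N) (hℓS : ℓ ∉ S),
        qCoeff f ℓ = χ (CuspForm.heckeAlgebra.T hℓ hℓN hℓS) := by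
  classical
  have hfinS : Module.Finite ℤ (CuspForm.heckeAlgebra N 2 S) := Fermat.Agent.S22.result N 2 S
  have hfinT : Module.Finite ℤ (CuspForm.heckeAlgebra N 2 ∅) := Fermat.Agent.S22.result N 2 ∅
  have hfinV : FiniteDimensional ℂ (CuspForm (Gamma0 N) 2) :=
    Fermat.Agent.S23.finiteDimensional_cuspForm N 2
  let φ : CuspForm.heckeAlgebra N 2 S →+* Module.End ℂ (CuspForm (Gamma0 N) 2) :=
    (CuspForm.heckeAlgebra N 2 S).val.toRingHom
  have hφ : Function.Injective φ := Subtype.val_injective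
  obtain ⟨w₀, hw₀, hw₀eig⟩ := exists_eigenvector_of_ringHom φ hφ (coeffL N)
    (fun j : CuspForm.intLattice N 2 => (j : CuspForm (Gamma0 N) 2))
    (fun v hv => eq_zero_of_qCoeff v hv)
    (by
      have h := Fermat.Agent.S23.result N
      unfold CuspForm.HasIntegralStructure at h
      convert h using 2
      exact Subtype.range_coe)
    (fun t i j => (mem_intLattice_iff _).1
      (CuspForm.mem_intLattice_of_mem_heckeAlgebra (by norm_num) t.2 j.2) i) χ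
  -- the eigenspace
  let W : Submodule ℂ (CuspForm (Gamma0 N) 2) :=
    { carrier := {v | ∀ t : CuspForm.heckeAlgebra N 2 S,
        (t : Module.End ℂ (CuspForm (Gamma0 N) 2)) v = χ t • v}
      zero_mem' := fun t => by simp
      add_mem' := fun {x y} hx hy t => by rw [map_add, hx t, hy t, smul_add]
      smul_mem' := fun c x hx t => by rw [map_smul, hx t, smul_comm] }
  have hle : CuspForm.heckeAlgebra N 2 S ≤ CuspForm.heckeAlgebra N 2 ∅ :=
    CuspForm.heckeAlgebra_mono (Set.empty_subset S)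
  have hstab : ∀ (s : CuspForm.heckeAlgebra N 2 ∅), ∀ v ∈ W,
      (s : Module.End ℂ (CuspForm (Gamma0 N) 2)) v ∈ W := by
    intro s v hv t
    have hc : (t : Module.End ℂ (CuspForm (Gamma0 N) 2)) * s
        = s * (t : Module.End ℂ (CuspForm (Gamma0 N) 2)) :=
      congrArg Subtype.val (mul_comm (⟨t.1, hle t.2⟩ : CuspForm.heckeAlgebra N 2 ∅) s)
    have h1 := LinearMap.congr_fun hc v
    rw [Module.End.mul_apply, Module.End.mul_apply, hv t, map_smul] at h1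
    exact h1
  let φW : CuspForm.heckeAlgebra N 2 ∅ →+* Module.End ℂ W :=
    { toFun := fun s => (s : Module.End ℂ (CuspForm (Gamma0 N) 2)).restrict (hstab s)
      map_one' := by ext; rfl
      map_mul' := fun s s' => by ext; rfl
      map_zero' := by ext; rfl
      map_add' := fun s s' => by ext; rfl }
  obtain ⟨w, μ, hw, hweig, -⟩ := exists_common_eigenvector φW (⟨w₀, hw₀eig⟩ : W)
    (fun h => hw₀ (congrArg Subtype.val h))
  have hw' : (w : CuspForm (Gamma0 N) 2) ≠ 0 := fun h => hw (Subtype.ext h)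
  have hweig' : ∀ t : CuspForm.heckeAlgebra N 2 ∅,
      (t : Module.End ℂ (CuspForm (Gamma0 N) 2)) (w : CuspForm (Gamma0 N) 2)
        = μ t • (w : CuspForm (Gamma0 N) 2) := fun t => congrArg Subtype.val (hweig t)
  obtain ⟨f, hf, hfT⟩ := exists_normalizedEigenform_of_eigenvector (w : CuspForm (Gamma0 N) 2) hw' μ
    hweig'
  refine ⟨f, hf, fun ℓ hℓ hℓN hℓS => ?_⟩
  rw [hfT ℓ hℓ hℓN]
  have h1 := hweig' (CuspForm.heckeAlgebra.T hℓ hℓN (Set.notMem_empty _))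
  have h2 := w.2 (CuspForm.heckeAlgebra.T hℓ hℓN hℓS)
  have h3 : μ (CuspForm.heckeAlgebra.T hℓ hℓN (Set.notMem_empty _)) • (w : CuspForm (Gamma0 N) 2) =
      χ (CuspForm.heckeAlgebra.T hℓ hℓN hℓS) • (w : CuspForm (Gamma0 N) 2) := h1.symm.trans h2
  exact smul_left_injective ℂ hw' h3

/-- if `S` contains the primes dividing the level, the Hecke algebra away from `S` is generated by
the `T_ℓ`. -/
theorem aeval_heckeT_surjective {N : ℕ} [NeZero N] (S : Set ℕ)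
    (hS : ∀ ℓ : ℕ, ℓ.Prime → ℓ ∣ N → ℓ ∈ S) :
    Function.Surjective (MvPolynomial.aeval (heckeT N S) :
      MvPolynomial ℕ ℤ →ₐ[ℤ] CuspForm.heckeAlgebra N 2 S) := by
  rintro ⟨x, hx⟩
  induction hx using Algebra.adjoin_induction with
  | mem y hy =>
    rcases hy with ⟨ℓ, hℓ, hℓN, hℓS, rfl⟩ | ⟨q, hqN, hq, hqS, rfl⟩
    · refine ⟨MvPolynomial.X ℓ, ?_⟩
      rw [MvPolynomial.aeval_X, heckeT_eq hℓ hℓN hℓS]
      rfl
    · exact absurd (hS q hq hqN) hqS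
  | algebraMap r =>
    refine ⟨MvPolynomial.C r, ?_⟩
    rw [MvPolynomial.aeval_C]
    rfl
  | add y z hy hz ihy ihz =>
    obtain ⟨s, hs⟩ := ihy
    obtain ⟨t, ht⟩ := ihz
    refine ⟨s + t, ?_⟩
    rw [map_add, hs, ht]
    rfl
  | mul y z hy hz ihy ihz =>
    obtain ⟨s, hs⟩ := ihy
    obtain ⟨t, ht⟩ := ihz
    refine ⟨s * t, ?_⟩
    rw [map_mul, hs, ht]
    rfl

/-- [T35-OLDS] a Hecke operator away from `S` killing the level `M₁` but not the form `g` of level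
`M₁ * q`, new at `q`. -/
theorem exists_oldKiller_away' {M₁ q : ℕ} [NeZero M₁] [NeZero (M₁ * q)]
    {g : CuspForm (Gamma0 (M₁ * q)) 2} (hg : g.IsNormalizedEigenform)
    (hnew : ¬ g.GoodEigensystemOccursAt M₁) (S : Finset ℕ)
    (hS : ∀ ℓ : ℕ, ℓ.Prime → ℓ ∣ M₁ * q → ℓ ∈ S)
    (χ : CuspForm.heckeAlgebra (M₁ * q) 2 (↑S : Set ℕ) →+* ℂ)
    (hχ : ∀ (ℓ : ℕ) (hℓ : ℓ.Prime) (hℓM : ¬ ℓ ∣ M₁ * q) (hℓS : ℓ ∉ (↑S : Set ℕ)),
      χ (CuspForm.heckeAlgebra.T hℓ hℓM hℓS) = qCoeff g ℓ) :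
    ∃ t₀ : MvPolynomial ℕ ℤ, MvPolynomial.aeval (heckeT M₁ (↑S : Set ℕ)) t₀ = 0 ∧
      χ (MvPolynomial.aeval (heckeT (M₁ * q) (↑S : Set ℕ)) t₀) ≠ 0 := by
  by_contra hcon
  push Not at hcon
  let ε : MvPolynomial ℕ ℤ →+* CuspForm.heckeAlgebra M₁ 2 (↑S : Set ℕ) :=
    (MvPolynomial.aeval (heckeT M₁ (↑S : Set ℕ)) :
      MvPolynomial ℕ ℤ →ₐ[ℤ] CuspForm.heckeAlgebra M₁ 2 (↑S : Set ℕ)).toRingHom
  let X : MvPolynomial ℕ ℤ →+* ℂ := χ.comp
    (MvPolynomial.aeval (heckeT (M₁ * q) (↑S : Set ℕ)) :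
      MvPolynomial ℕ ℤ →ₐ[ℤ] CuspForm.heckeAlgebra (M₁ * q) 2 (↑S : Set ℕ)).toRingHom
  have hε : Function.Surjective ε := aeval_heckeT_surjective (↑S : Set ℕ)
    (fun ℓ hℓ hd => hS ℓ hℓ (hd.mul_right q))
  have hker : RingHom.ker ε ≤ RingHom.ker X := fun t ht => hcon t ht
  let χ₁ : CuspForm.heckeAlgebra M₁ 2 (↑S : Set ℕ) →+* ℂ := ε.liftOfSurjective hε ⟨X, hker⟩
  have hχ₁ : ∀ t, χ₁ (ε t) = X t := fun t =>
    ε.liftOfRightInverse_comp_apply _ (Function.rightInverse_surjInv hε) ⟨X, hker⟩ t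
  obtain ⟨f, hf, hfχ⟩ := exists_eigenform_of_ringHom' (↑S : Set ℕ) χ₁
  have hfg : ∀ ℓ : ℕ, ℓ.Prime → ℓ ∉ S → qCoeff f ℓ = qCoeff g ℓ := by
    intro ℓ hℓ hℓS
    have hℓM : ¬ ℓ ∣ M₁ * q := fun h => hℓS (hS ℓ hℓ h)
    have hℓM₁ : ¬ ℓ ∣ M₁ := fun h => hℓM (h.mul_right q)
    have hℓS' : ℓ ∉ (↑S : Set ℕ) := hℓS
    rw [hfχ ℓ hℓ hℓM₁ hℓS', ← hχ ℓ hℓ hℓM hℓS']
    have h1 : ε (MvPolynomial.X ℓ) = CuspForm.heckeAlgebra.T hℓ hℓM₁ hℓS' :=
      (MvPolynomial.aeval_X _ ℓ).trans (heckeT_eq hℓ hℓM₁ hℓS')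
    have h2 : X (MvPolynomial.X ℓ) = χ (CuspForm.heckeAlgebra.T hℓ hℓM hℓS') :=
      congrArg χ ((MvPolynomial.aeval_X _ ℓ).trans (heckeT_eq hℓ hℓM hℓS'))
    rw [← h1, hχ₁, h2]
  exact hnew ⟨f, hf, fun ℓ hℓ hℓM =>
    smo hf hg S hfg ℓ hℓ (fun h => hℓM (h.mul_right q)) hℓM⟩

end Fermat.Agent.SS
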