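import Fermat.Agent.SS.Top35.Toric2
import Fermat.Agent.SS.Top35.CompatF
import Fermat.Agent.RED.TorsESAbs

/-!
# SS / TOP-35 : the Steinberg relation at the rigid level, in Kummer form

`m D = div f` at the level `M q` (`M` rigid), `N_α f`, `N_β f` are `m`-th powers.  Then
`(σ² - 1)(σ² - q²) [D] = 0` for every Frobenius lift `σ` at `q`.
Inputs: the reduction of the norms (`NormRedA`, `NormRedB`, project leaf [T35-NORMRED]).
-/

set_option autoImplicit false
set_option linter.unusedSectionVars false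
set_option linter.style.haveILetI false

noncomputable section

open AlgebraicCurve ModularCurve IsLocalRing

namespace Fermat.Agent.SS

open Fermat.Agent.RED hiding Kb
open Fermat.Agent.RED.Gauss Fermat.Agent.S24 Fermat.Agent.S28
open Fermat.Agent.RED.Cusp (Fb jb)

section Defs

variable {M q : ℕ} [NeZero M] [hq : Fact q.Prime] (hqM : ¬ q ∣ M)
variable {A : ValuationSubring Kb} {k : Type*} [Field k]
variable (π : A →+* k) [CharP k q] [IsAlgClosed k] (hπ : Function.Surjective π)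

/-- **[T35-NORMRED]** for `α` : if `c₁ f`, `c₂ f` are units for the two valuations, with reductions
`a`, `b`, then `c₁ c₂^q N_α f` is a Gauss unit of level `M` with reduction `a φ(b)`. -/
def NormRedA : Prop :=
  ∀ (f : FN (M * q)) (c₁ c₂ : Kb)
    (h₁ : algebraMap Kb (FN (M * q)) c₁ * f ∈ (twoRed hqM π hπ).R₁.O)
    (h₂ : algebraMap Kb (FN (M * q)) c₂ * f ∈ (twoRed hqM π hπ).R₂.O),
    (twoRed hqM π hπ).R₁.red ⟨_, h₁⟩ ≠ 0 → (twoRed hqM π hπ).R₂.red ⟨_, h₂⟩ ≠ 0 →
    ∃ hN : ((algebraMap Kb (FN M) (c₁ * c₂ ^ q) * TorsES.normAlong (heckeAlphaBar Kb M q) f :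
        FN M) : LaurentSeries Kb) ∈ bigO π,
      bigRed π ⟨_, hN⟩ = ((twoRed hqM π hπ).R₁.red ⟨_, h₁⟩ : LaurentSeries k) *
        coeffMap (frobenius k q) ((twoRed hqM π hπ).R₂.red ⟨_, h₂⟩ : LaurentSeries k)

/-- **[T35-NORMRED]** for `β`. -/
def NormRedB : Prop :=
  ∀ (f : FN (M * q)) (c₁ c₂ : Kb)
    (h₁ : algebraMap Kb (FN (M * q)) c₁ * f ∈ (twoRed hqM π hπ).R₁.O)
    (h₂ : algebraMap Kb (FN (M * q)) c₂ * f ∈ (twoRed hqM π hπ).R₂.O),
    (twoRed hqM π hπ).R₁.red ⟨_, h₁⟩ ≠ 0 → (twoRed hqM π hπ).R₂.red ⟨_, h₂⟩ ≠ 0 →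
    ∃ hN : ((algebraMap Kb (FN M) (c₂ * c₁ ^ q) * TorsES.normAlong (heckeBetaBar Kb M q) f :
        FN M) : LaurentSeries Kb) ∈ bigO π,
      bigRed π ⟨_, hN⟩ = ((twoRed hqM π hπ).R₂.red ⟨_, h₂⟩ : LaurentSeries k) *
        coeffMap (frobenius k q) ((twoRed hqM π hπ).R₁.red ⟨_, h₁⟩ : LaurentSeries k)

include hqM hπ in
/-- an element of `F_M` whose `m`-th power times a constant is a Gauss unit: the reduction is an
`m`-th power -/
theorem exists_pow_eq_bigRed {m : ℕ} (hm : m ≠ 0) (c : Kb) (h : FN M)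
    (hN : ((algebraMap Kb (FN M) c * h ^ m : FN M) : LaurentSeries Kb) ∈ bigO π) :
    ∃ x : Fb k M, (x : LaurentSeries k) ^ m = bigRed π ⟨_, hN⟩ := by
  obtain ⟨u, hu⟩ := exists_isCoreExt M q hqM
  set R := gaussRedData π hπ (card_Q_pos M) hu with hR
  obtain ⟨d, hd⟩ := IsAlgClosed.exists_pow_nat_eq c (Nat.pos_of_ne_zero hm)
  have e : (algebraMap Kb (FN M) d * h) ^ m = algebraMap Kb (FN M) c * h ^ m := by
    rw [mul_pow, ← map_pow, hd]
  have hmem : algebraMap Kb (FN M) d * h ∈ R.O := by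
    refine mem_valSubring_of_pow_mem R.O hm ?_
    rw [e]
    exact hN
  refine ⟨R.red ⟨_, hmem⟩, ?_⟩
  have h1 : (R.red ⟨_, hmem⟩) ^ m = R.red ⟨algebraMap Kb (FN M) c * h ^ m, hN⟩ := by
    rw [← map_pow]
    exact congrArg R.red (Subtype.ext e)
  exact congrArg Subtype.val h1

end Defs

section Alg

variable {k Fb : Type*} [Field k] [Field Fb] [Algebra k Fb]

/-- the algebra of [T35-TORIC2] : `a φ(b) = x^m`, `b φ(a) = y^m` ⇒ `φ²(a) = (φ(y)/x)^m a`. -/
theorem toric2_alg (φ : SemilinearAut k Fb) {a b x y : Fb} {m : ℕ} (ha : a ≠ 0) (hb : b ≠ 0)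
    (hx : x ^ m = a * φ • b) (hy : y ^ m = b * φ • a) :
    φ • φ • a = (φ • y / x) ^ m * a := by
  have hφb : φ • b ≠ 0 := semilinear_smul_ne_zero φ hb
  rw [div_pow, ← smul_pow', hx, hy, smul_mul']
  field_simp

end Alg

section Main

variable {M q : ℕ} [NeZero M] [hq : Fact q.Prime] (hqM : ¬ q ∣ M)
variable (A : ValuationSubring Kb) [CharP (ResidueField A) q] [IsAlgClosed (ResidueField A)]

theorem coe_coeffAut_frob {σ : GQ} (hσ : A.IsFrobeniusAt σ q) (w : Fb (ResidueField A) M) :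
    ((coeffAut (ResidueField A) M (resAut A σ hσ.mem_decompositionSubgroup) • w :
      Fb (ResidueField A) M) : LaurentSeries (ResidueField A)) =
      coeffMap (frobenius (ResidueField A) q) (w : LaurentSeries (ResidueField A)) := by
  rw [coe_coeffAut_smul]
  refine coeffMap_congr (RingHom.ext fun c => ?_) _
  show resAut A σ hσ.mem_decompositionSubgroup c = c ^ q
  rw [resAut_apply, hσ.smul_residue_eq]

theorem coeffAut_mul_self_smul {σ : GQ} (hσ : A.IsFrobeniusAt σ q) (w : Fb (ResidueField A) M) :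
    coeffAut (ResidueField A) M (resAut A (σ * σ) (mul_self_mem_decomposition A hσ)) • w =
      coeffAut (ResidueField A) M (resAut A σ hσ.mem_decompositionSubgroup) •
        coeffAut (ResidueField A) M (resAut A σ hσ.mem_decompositionSubgroup) • w := by
  apply Subtype.ext
  rw [coe_coeffAut_smul, coe_coeffAut_smul, coe_coeffAut_smul, coeffMap_coeffMap]
  refine coeffMap_congr (RingHom.ext fun c => ?_) _
  show resAut A (σ * σ) _ c = resAut A σ _ (resAut A σ _ c)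
  rw [resAut_mul_self A hσ, resAut_apply, resAut_apply, hσ.smul_residue_eq, hσ.smul_residue_eq,
    ← pow_mul, sq]

/-- **[T35-TORIC2]** -/
theorem isToric_frob_sq (h49 : 4 ∣ M ∨ 9 ∣ M) (hA : A.LiesOverPrime q)
    (hNA : NormRedA hqM (IsLocalRing.residue A) IsLocalRing.residue_surjective)
    (hNB : NormRedB hqM (IsLocalRing.residue A) IsLocalRing.residue_surjective)
    {m : ℕ} (hm : m ≠ 0) {σ : GQ} (hσ : A.IsFrobeniusAt σ q)
    {D : Divisor.degZero (K := Kb) (F := FN (M * q))} {f : FN (M * q)}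
    (hf : TorsES.IsDiv (m : ℤ) (D : Divisor Kb (FN (M * q))) f) {h₁ h₂ : FN M}
    (e₁ : TorsES.normAlong (heckeAlphaBar Kb M q) f = h₁ ^ m)
    (e₂ : TorsES.normAlong (heckeBetaBar Kb M q) f = h₂ ^ m) :
    IsToric (twoRed hqM (IsLocalRing.residue A) IsLocalRing.residue_surjective) m
      (gal (M * q) (σ * σ) • Pic0.mk D - Pic0.mk D) := by
  obtain ⟨𝒩, -, hF⟩ := exists_nodalData_compat hqM A h49 hA
  obtain ⟨c₁, k₁, ha⟩ := (twoRed hqM (IsLocalRing.residue A)
    IsLocalRing.residue_surjective).R₁.exists_scale f hf.1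
  obtain ⟨c₂, k₂, hb⟩ := (twoRed hqM (IsLocalRing.residue A)
    IsLocalRing.residue_surjective).R₂.exists_scale f hf.1
  set φ := coeffAut (ResidueField A) M (resAut A σ hσ.mem_decompositionSubgroup) with hφ
  obtain ⟨hN1, r1⟩ := hNA f c₁ c₂ k₁ k₂ ha hb
  obtain ⟨hN2, r2⟩ := hNB f c₁ c₂ k₁ k₂ ha hb
  have hN1' : ((algebraMap Kb (FN M) (c₁ * c₂ ^ q) * h₁ ^ m : FN M) : LaurentSeries Kb) ∈
      bigO (IsLocalRing.residue A) := by rw [← e₁]; exact hN1
  have hN2' : ((algebraMap Kb (FN M) (c₂ * c₁ ^ q) * h₂ ^ m : FN M) : LaurentSeries Kb) ∈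
      bigO (IsLocalRing.residue A) := by rw [← e₂]; exact hN2
  obtain ⟨x, hx⟩ := exists_pow_eq_bigRed hqM (IsLocalRing.residue A)
    IsLocalRing.residue_surjective hm _ h₁ hN1'
  obtain ⟨y, hy⟩ := exists_pow_eq_bigRed hqM (IsLocalRing.residue A)
    IsLocalRing.residue_surjective hm _ h₂ hN2'
  have X1 : x ^ m = (twoRed hqM (IsLocalRing.residue A)
      IsLocalRing.residue_surjective).R₁.red ⟨_, k₁⟩ * φ • (twoRed hqM (IsLocalRing.residue A)
      IsLocalRing.residue_surjective).R₂.red ⟨_, k₂⟩ := by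
    apply Subtype.ext
    refine hx.trans ?_
    rw [bigRed_congr (IsLocalRing.residue A) (by rw [e₁]) hN1' hN1, r1]
    show _ = _ * ((φ • (twoRed hqM (IsLocalRing.residue A)
      IsLocalRing.residue_surjective).R₂.red ⟨_, k₂⟩ : Fb (ResidueField A) M) :
      LaurentSeries (ResidueField A))
    rw [hφ, coe_coeffAut_frob A hσ]
  have X2 : y ^ m = (twoRed hqM (IsLocalRing.residue A)
      IsLocalRing.residue_surjective).R₂.red ⟨_, k₂⟩ * φ • (twoRed hqM (IsLocalRing.residue A)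
      IsLocalRing.residue_surjective).R₁.red ⟨_, k₁⟩ := by
    apply Subtype.ext
    refine hy.trans ?_
    rw [bigRed_congr (IsLocalRing.residue A) (by rw [e₂]) hN2' hN2, r2]
    show _ = _ * ((φ • (twoRed hqM (IsLocalRing.residue A)
      IsLocalRing.residue_surjective).R₁.red ⟨_, k₁⟩ : Fb (ResidueField A) M) :
      LaurentSeries (ResidueField A))
    rw [hφ, coe_coeffAut_frob A hσ]
  refine isToric_smul_sub_gen 𝒩 hm (hF σ hσ) hf.2 k₁ k₂ ha hb (z₁ := φ • y / x)
    (z₂ := φ • x / y) ?_ ?_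
  · rw [coeffAut_mul_self_smul A hσ]
    exact toric2_alg φ ha hb X1 X2
  · rw [coeffAut_mul_self_smul A hσ]
    exact toric2_alg φ hb ha X2 X1

/-- **The Steinberg relation at the rigid level, Kummer form.** -/
theorem steinKum (h49 : 4 ∣ M ∨ 9 ∣ M) (hA : A.LiesOverPrime q)
    (hNA : NormRedA hqM (IsLocalRing.residue A) IsLocalRing.residue_surjective)
    (hNB : NormRedB hqM (IsLocalRing.residue A) IsLocalRing.residue_surjective)
    {p : ℕ} (hp : p.Prime) (hpq : p ≠ q) (e : ℕ) {σ : GQ} (hσ : A.IsFrobeniusAt σ q)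
    {D : Divisor.degZero (K := Kb) (F := FN (M * q))} {f : FN (M * q)}
    (hf : TorsES.IsDiv ((p ^ e : ℕ) : ℤ) (D : Divisor Kb (FN (M * q))) f) {h₁ h₂ : FN M}
    (e₁ : TorsES.normAlong (heckeAlphaBar Kb M q) f = h₁ ^ (p ^ e))
    (e₂ : TorsES.normAlong (heckeBetaBar Kb M q) f = h₂ ^ (p ^ e)) :
    σ • σ • σ • σ • (Pic0.mk D : JZero (M * q)) - (q ^ 2 + 1) • σ • σ • (Pic0.mk D : JZero (M * q))
      + q ^ 2 • (Pic0.mk D : JZero (M * q)) = 0 := by
  have h1 := isToric_frob_sq hqM A h49 hA hNA hNB (pow_ne_zero e hp.ne_zero) hσ hf e₁ e₂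
  have h2 := frob_sq_smul_of_isToric hqM A h49 hA hp hpq e hσ h1
  have h3 : ∀ z : JZero (M * q), gal (M * q) (σ * σ) • z = σ • σ • z := by
    intro z
    rw [gal, map_mul, mul_smul]
    rfl
  rw [h3, h3, smul_sub, smul_sub, nsmul_sub] at h2
  rw [add_smul, one_smul]
  have h4 := sub_eq_zero.mpr h2
  rw [← h4]
  abel

end Main

end Fermat.Agent.SS
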