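import Fermat.Agent.SS.Top35.Stein
import Fermat.Agent.GAL.PC.S34Wire

/-!
# SS / TOP-35 : S35 from the interface `SteinGeo`
-/

set_option autoImplicit false

noncomputable section

open Polynomial IsLocalRing ModularCurve CongruenceSubgroup

namespace Fermat.Agent.SS

open Fermat.Agent.GAL Fermat.Agent.GAL.PC

local notation "Qbar" => AlgebraicClosure ℚ
local notation "GQ" => (AlgebraicClosure ℚ ≃ₐ[ℚ] AlgebraicClosure ℚ)

section Rep

variable {O : Type} [CommRing O] [IsDomain O] [IsLocalRing O] [IsHausdorff (maximalIdeal O) O]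
  {N : ℕ} [NeZero N] {p : ℕ} {S : Finset ℕ}

/-- [T35-DET] the determinant of a Frobenius lift at a bad prime `q ≠ p`. -/
theorem det_frob_eq (hp : p.Prime) (hpO : (p : O) ∈ maximalIdeal O) (hpS : p ∈ S)
    (ρ : GaloisRepAdic O) (a : ℕ → O)
    (hρ : ∀ ℓ : ℕ, ℓ.Prime → ℓ ∉ (↑S : Set ℕ) → ∀ A : ValuationSubring Qbar, A.LiesOverPrime ℓ →
      ∀ σ : GQ, A.IsFrobeniusAt σ ℓ →
        LinearMap.charpoly (ρ.ρ σ) = X ^ 2 - C (a ℓ) * X + C ((ℓ : O)))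
    {q : ℕ} (hq : q.Prime) (hqp : q ≠ p) {A : ValuationSubring Qbar} (hA : A.LiesOverPrime q)
    {σ : GQ} (hσ : A.IsFrobeniusAt σ q) : LinearMap.det (ρ.ρ σ) = (q : O) := by
  have hcyc := cycEq_of_isFrobeniusAt hp hq hqp hA hσ
  refine eq_of_forall_mk_eq (maximalIdeal O) fun n => ?_
  have h2 := isPrePC_of_rep ρ (↑S : Set ℕ) a hρ n
  have : NeZero (p ^ n) := ⟨pow_ne_zero _ hp.ne_zero⟩
  have h0 : ((p ^ n : ℕ) : O ⧸ maximalIdeal O ^ n) = 0 := by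
    rw [← map_natCast (Ideal.Quotient.mk (maximalIdeal O ^ n)), Ideal.Quotient.eq_zero_iff_mem,
      Nat.cast_pow]
    exact Ideal.pow_mem_pow hpO n
  have h3 := isCyc_cycTo (O ⧸ maximalIdeal O ^ n) (p ^ n) h0 (↑S : Set ℕ) (fun ℓ hℓ hd => by
    rw [(Nat.prime_dvd_prime_iff_eq hℓ hp).1 (hℓ.dvd_of_dvd_pow hd)]
    exact hpS)
  have h4 := DFunLike.congr_fun (IsCyc.unique Fermat.Agent.Cheb.preludeSpec h2.cyc h3) σ
  have h5 : Ideal.Quotient.mk (maximalIdeal O ^ n) (LinearMap.det (ρ.ρ σ)) =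
      cycTo (O ⧸ maximalIdeal O ^ n) (p ^ n) h0 σ := h4
  rw [h5, cycTo_apply, hcyc (p ^ n) ⟨n, rfl⟩, map_natCast, map_natCast]

/-- [T35-TRACE] the square of the trace of a Frobenius lift at `q`. -/
theorem trace_frob_sq_eq [CharZero O] (hp : p.Prime) (hpO : (p : O) ∈ maximalIdeal O) (hpS : p ∈ S)
    (hNS : ∀ q : ℕ, q.Prime → q ∣ N → q ∈ S)
    (ρ : GaloisRepAdic O) (χ : CuspForm.heckeAlgebra N 2 (↑S : Set ℕ) →+* O)
    (hρ : ∀ ℓ : ℕ, ℓ.Prime → ℓ ∉ (↑S : Set ℕ) → ∀ A : ValuationSubring Qbar, A.LiesOverPrime ℓ →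
      ∀ σ : GQ, A.IsFrobeniusAt σ ℓ →
        LinearMap.charpoly (ρ.ρ σ) = X ^ 2 - C (χ (heckeT N (↑S : Set ℕ) ℓ)) * X + C ((ℓ : O)))
    {q : ℕ} (hq : q.Prime) (hqp : q ≠ p) (t₀ : MvPolynomial ℕ ℤ)
    (hSt : STEIN N p q (↑S : Set ℕ) t₀)
    (hχ : χ (MvPolynomial.aeval (heckeT N (↑S : Set ℕ)) t₀) ≠ 0)
    {A : ValuationSubring Qbar} (hA : A.LiesOverPrime q)
    {σ : GQ} (hσ : A.IsFrobeniusAt σ q) :
    LinearMap.trace O ρ.V (ρ.ρ σ) ^ 2 = ((q : O) + 1) ^ 2 := by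
  have hcyc := cycEq_of_isFrobeniusAt hp hq hqp hA hσ
  have key : (q : O) ^ 2 * (((q : O) + 1) ^ 2 - LinearMap.trace O ρ.V (ρ.ρ σ) ^ 2) ^ 2 *
      χ (MvPolynomial.aeval (heckeT N (↑S : Set ℕ)) t₀) = 0 := by
    refine eq_of_forall_mk_eq (maximalIdeal O) fun n => ?_
    obtain ⟨t, c, hpc, -, -, hraw⟩ := heckePC_raw hp S hpS hNS (galHecke N) (openStab N)
      (es_all N p).1 (es_all N p).2 (fun k => Final.sup N (p ^ k) (pow_ne_zero _ hp.ne_zero)) n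
    have h1 := hpc.toIsPrePC.map (quotMap χ (maximalIdeal O) p hpO n)
    have h2 := isPrePC_of_rep ρ (↑S : Set ℕ) (fun ℓ => χ (heckeT N (↑S : Set ℕ) ℓ)) hρ n
    have h3 := congrFun (IsPrePC.unique Fermat.Agent.Cheb.preludeSpec h2 h1) σ
    have h4 := rawOut_stein hraw σ q hcyc t₀ (fun f hf x _ => hSt A hA σ hσ f hf x)
    have h5 := congrArg (quotMap χ (maximalIdeal O) p hpO n) h4
    simp only [map_mul, map_pow, map_sub, map_add, map_one, map_natCast, map_zero, quotMap_mk]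
      at h5 ⊢
    rw [h3]
    exact h5
  have hq0 : (q : O) ^ 2 ≠ 0 := pow_ne_zero _ (Nat.cast_ne_zero.2 hq.ne_zero)
  have h6 := (mul_eq_zero.1 key).resolve_right hχ
  have h7 := pow_eq_zero_iff (two_ne_zero) |>.1 ((mul_eq_zero.1 h6).resolve_left hq0)
  exact (sub_eq_zero.1 h7).symm

end Rep

/-- [T35-IOTA] a ring homomorphism from a subring of `ℂ`, integral over `ℤ`, to a domain of
characteristic zero is injective. -/
theorem injective_of_integral {R : Subring ℂ} (hR : ∀ x ∈ R, IsIntegral ℤ x) {O : Type*}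
    [CommRing O] [IsDomain O] [CharZero O] (ι : R →+* O) : Function.Injective ι := by
  rw [injective_iff_map_eq_zero]
  intro x hx
  by_contra hx0
  have hint : IsIntegral ℤ x := by
    have h1 : IsIntegral ℤ (R.subtype x) := hR x x.2
    exact (isIntegral_algHom_iff (R.subtype.toIntAlgHom) Subtype.val_injective).1 h1
  obtain ⟨n, hn, hd⟩ := hint.isAlgebraic.exists_nonzero_dvd (mem_nonZeroDivisors_of_ne_zero hx0)
  obtain ⟨y, hy⟩ := hd
  have h2 := congrArg ι hy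
  rw [map_mul, hx, zero_mul] at h2
  have h3 : ((n : ℤ) : O) = 0 := by
    rw [← h2]
    simp
  exact hn (by exact_mod_cast h3)

/-- [T35-INT] the values of a character of the Hecke algebra are algebraic integers (S22). -/
theorem isIntegral_of_mem_range {N : ℕ} [NeZero N] {S : Set ℕ}
    (χ : CuspForm.heckeAlgebra N 2 S →+* ℂ) : ∀ x ∈ χ.range, IsIntegral ℤ x := by
  rintro _ ⟨t, rfl⟩
  have : Module.Finite ℤ (CuspForm.heckeAlgebra N 2 S) := Fermat.Agent.S22.result N 2 S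
  have h : IsIntegral ℤ t := IsIntegral.of_finite ℤ t
  exact h.map χ.toIntAlgHom

/-- **S35 from the interface (STEINGEO).** -/
theorem s35_of_steinGeo
    (hGeo : ∀ (M₁ q p : ℕ) [NeZero M₁] [NeZero q], q.Prime → p.Prime → q ≠ p → ¬ q ∣ M₁ →
      SteinGeo M₁ q p)
    {M : ℕ} [NeZero M] {g : CuspForm (CongruenceSubgroup.Gamma0 M) 2} (hg : g.IsNewform)
    (lam : ℕ) [Fact lam.Prime]
    (S : Finset ℕ)
    (O' : Type) [CommRing O'] [IsDomain O'] [IsDiscreteValuationRing O']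
    [IsAdicComplete (IsLocalRing.maximalIdeal O') O'] [Finite (IsLocalRing.ResidueField O')]
    [CharZero O'] (hlamO' : (lam : O') ∈ IsLocalRing.maximalIdeal O')
    (chig : CuspForm.heckeAlgebra M 2 (↑S : Set ℕ) →+* ℂ)
    (hchig : ∀ (ℓ : ℕ) (hℓ : ℓ.Prime) (hℓM : ¬ ℓ ∣ M) (hℓS : ℓ ∉ (↑S : Set ℕ)),
      chig (CuspForm.heckeAlgebra.T hℓ hℓM hℓS) = ModularFormClass.qCoeff g ℓ)
    (iota : chig.range →+* O')
    (hlamS : lam ∈ S) (hMS : ∀ q : ℕ, q.Prime → q ∣ M → q ∈ S) :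
    ∃ (O'' : Type) (_ : CommRing O'') (_ : IsDomain O'') (_ : IsDiscreteValuationRing O'')
      (_ : IsAdicComplete (IsLocalRing.maximalIdeal O'') O'') (_ : Finite (IsLocalRing.ResidueField O''))
      (_ : CharZero O'') (_ : Algebra O' O'') (_ : Module.Finite O' O'') (_ : IsLocalHom (algebraMap O' O'')),
      Function.Injective (algebraMap O' O'') ∧
      ∃ ρ : GaloisRepAdic O'',
        (∀ (ℓ : ℕ) (hℓ : ℓ.Prime) (hℓM : ¬ ℓ ∣ M) (hℓS : ℓ ∉ (↑S : Set ℕ)),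
          ∀ A : ValuationSubring (AlgebraicClosure ℚ), A.LiesOverPrime ℓ →
            ∀ σ : AlgebraicClosure ℚ ≃ₐ[ℚ] AlgebraicClosure ℚ, A.IsFrobeniusAt σ ℓ →
              LinearMap.charpoly (ρ.ρ σ) =
                X ^ 2 - C (algebraMap O' O'' ((iota.comp chig.rangeRestrict) (CuspForm.heckeAlgebra.T hℓ hℓM hℓS))) * X
                  + C ((ℓ : O''))) ∧
        (∀ q : ℕ, q.Prime → q ≠ lam → q ∣ M → ¬ q ^ 2 ∣ M →
          ∀ A : ValuationSubring (AlgebraicClosure ℚ), A.LiesOverPrime q →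
            ∀ σ : AlgebraicClosure ℚ ≃ₐ[ℚ] AlgebraicClosure ℚ, A.IsFrobeniusAt σ q →
              LinearMap.charpoly (ρ.ρ σ) = X ^ 2 - C ((q : O'') + 1) * X + C ((q : O'')) ∨
              LinearMap.charpoly (ρ.ρ σ) = X ^ 2 + C ((q : O'') + 1) * X + C ((q : O''))) := by
  have hlam : lam.Prime := Fact.out
  obtain ⟨O'', i1, i2, i3, i4, i5, i6, i7, i8, i9, hinj, ρ, hρ, -⟩ :=
    Final.s30 (fun _ _ _ _ _ _ _ _ _ _ _ _ h1 h2 => Fermat.Agent.RR.rhRel h1 h2) lam M S hlamS hMS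
      O' hlamO' (iota.comp chig.rangeRestrict)
  refine ⟨O'', i1, i2, i3, i4, i5, i6, i7, i8, i9, hinj, ρ, hρ, ?_⟩
  intro q hq hqlam hqM hq2 A hA σ hσ
  set χ : CuspForm.heckeAlgebra M 2 (↑S : Set ℕ) →+* O'' :=
    (algebraMap O' O'').comp (iota.comp chig.rangeRestrict) with hχdef
  have hlamO'' : (lam : O'') ∈ maximalIdeal O'' := by
    have h1 : (lam : O'') = algebraMap O' O'' (lam : O') := (map_natCast _ _).symm
    rw [h1, mem_maximalIdeal, mem_nonunits_iff]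
    intro hu
    exact (mem_maximalIdeal _).mp hlamO' (isUnit_of_map_unit (algebraMap O' O'') _ hu)
  have hρ' : ∀ ℓ : ℕ, ℓ.Prime → ℓ ∉ (↑S : Set ℕ) → ∀ A : ValuationSubring Qbar,
      A.LiesOverPrime ℓ → ∀ σ : GQ, A.IsFrobeniusAt σ ℓ →
        LinearMap.charpoly (ρ.ρ σ) = X ^ 2 - C (χ (heckeT M (↑S : Set ℕ) ℓ)) * X + C ((ℓ : O'')) := by
    intro ℓ hℓ hℓS A hA σ hσ
    have hℓM : ¬ ℓ ∣ M := fun h => hℓS (hMS ℓ hℓ h)
    rw [heckeT_eq hℓ hℓM hℓS]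
    exact hρ ℓ hℓ hℓM hℓS A hA σ hσ
  have hdet := det_frob_eq hlam hlamO'' hlamS ρ _ hρ' hq hqlam hA hσ
  -- the trace
  have htr : LinearMap.trace O'' ρ.V (ρ.ρ σ) ^ 2 = ((q : O'') + 1) ^ 2 := by
    obtain ⟨M₁, rfl⟩ : ∃ M₁, M = M₁ * q := ⟨M / q, (Nat.div_mul_cancel hqM).symm⟩
    have hM₁0 : M₁ ≠ 0 := fun h0 => NeZero.ne (M₁ * q) (by rw [h0, zero_mul])
    haveI : NeZero M₁ := ⟨hM₁0⟩
    haveI : NeZero q := ⟨hq.ne_zero⟩
    have hqM₁ : ¬ q ∣ M₁ := fun h => hq2 (by rw [pow_two]; exact Nat.mul_dvd_mul_right h q)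
    have hnew : ¬ g.GoodEigensystemOccursAt M₁ :=
      hg.2 M₁ (Dvd.intro _ rfl) (fun h => by
        have h1 : M₁ * 1 = M₁ * q := by rw [mul_one]; exact h
        exact hq.one_lt.ne (Nat.eq_of_mul_eq_mul_left (Nat.pos_of_ne_zero hM₁0) h1))
    obtain ⟨t₀, ht₀, hχt₀⟩ := exists_oldKiller_away hg.1 hnew S hMS chig hchig
    have hS : ∀ ℓ : ℕ, ℓ.Prime → ℓ ∉ (↑S : Set ℕ) → ¬ ℓ ∣ M₁ * q * lam := by
      intro ℓ hℓ hℓS hd
      rcases (Nat.Prime.dvd_mul hℓ).mp hd with h | h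
      · exact hℓS (hMS ℓ hℓ h)
      · rw [(Nat.prime_dvd_prime_iff_eq hℓ hlam).mp h] at hℓS
        exact hℓS hlamS
    have hSt := stein_of_steinGeo hlam (hGeo M₁ q lam hq hlam hqlam hqM₁) (↑S : Set ℕ) hS t₀ ht₀
    refine trace_frob_sq_eq hlam hlamO'' hlamS hMS ρ χ hρ' hq hqlam t₀ hSt ?_ hA hσ
    intro h0
    apply hχt₀
    have h1 := (injective_iff_map_eq_zero _).1 hinj _ h0
    have h2 := (injective_iff_map_eq_zero _).1
      (injective_of_integral (isIntegral_of_mem_range chig) iota) _ h1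
    exact congrArg Subtype.val h2
  rw [charpoly_eq_of_finrank_two ρ.finrank_eq, hdet]
  rcases sq_eq_sq_iff_eq_or_eq_neg.1 htr with h | h
  · left; rw [h]
  · right; rw [h, map_neg, neg_mul, sub_neg_eq_add]

end Fermat.Agent.SS
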