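import Fermat.Agent.SS.Top35.SteinKum
import Fermat.Agent.SS.Top35.NormQ
import Fermat.Agent.SS.Top35.Stein

/-!
# SS / TOP-35 : `SteinGeo` from the Steinberg relation at the rigid level

Descent from the level `M₁ c q` (`c = aux q`) to the level `M₁ q` along `B : T ↦ T ^ c`.
Input: base change of the norms ([T35-NORMBC]), in Laurent series form.
-/

set_option autoImplicit false
set_option linter.unusedSectionVars false
set_option linter.style.haveILetI false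

noncomputable section

open AlgebraicCurve ModularCurve IsLocalRing

namespace Fermat.Agent.SS

open Fermat.Agent.RED hiding Kb
open Fermat.Agent.RED.Gauss Fermat.Agent.S24 Fermat.Agent.S28
open Fermat.Agent.RED.Cusp (Fb jb)

section NormRed

variable {M q : ℕ} [NeZero M] [hq : Fact q.Prime] (hqM : ¬ q ∣ M)
variable {A : ValuationSubring Kb} {k : Type*} [Field k]
variable (π : A →+* k) [CharP k q] [IsAlgClosed k] (hπ : Function.Surjective π)

theorem ne_zero_of_red_ne_zero {K F k Fb : Type*} [Field K] [Field F] [Algebra K F] [Field k]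
    [Field Fb] [Algebra k Fb] (R : RedData K F k Fb) {c : K} {f : F}
    (h : algebraMap K F c * f ∈ R.O) (hr : R.red ⟨_, h⟩ ≠ 0) : c ≠ 0 := by
  rintro rfl
  apply hr
  have : (⟨algebraMap K F 0 * f, h⟩ : R.O) = 0 := Subtype.ext (by simp)
  rw [this, map_zero]

theorem normRed_aux {c₁ c₂ : Kb} (hc₁ : c₁ ≠ 0) (hc₂ : c₂ ≠ 0) (u : FN M) :
    algebraMap Kb (FN M) (c₁ * c₂ ^ q) * (algebraMap Kb (FN M) (c₁⁻¹ * c₂⁻¹ ^ q) * u) = u := by
  rw [← mul_assoc, ← map_mul]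
  have : c₁ * c₂ ^ q * (c₁⁻¹ * c₂⁻¹ ^ q) = 1 := by
    rw [inv_pow]
    field_simp
  rw [this, map_one, one_mul]

/-- `NormRedA` (helper90's `twoRed_norm_red`) -/
theorem normRedA : NormRedA hqM π hπ := by
  intro f c₁ c₂ h₁ h₂ ha hb
  have hc₁ := ne_zero_of_red_ne_zero _ h₁ ha
  have hc₂ := ne_zero_of_red_ne_zero _ h₂ hb
  have e₁ : f = algebraMap Kb (FN (M * q)) c₁⁻¹ * (algebraMap Kb (FN (M * q)) c₁ * f) := by
    rw [← mul_assoc, ← map_mul, inv_mul_cancel₀ hc₁, map_one, one_mul]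
  have e₂ : f = algebraMap Kb (FN (M * q)) c₂⁻¹ * (algebraMap Kb (FN (M * q)) c₂ * f) := by
    rw [← mul_assoc, ← map_mul, inv_mul_cancel₀ hc₂, map_one, one_mul]
  obtain ⟨⟨u, hu, hN, hred⟩, -⟩ := twoRed_norm_red hqM π hπ (inv_ne_zero hc₁) (inv_ne_zero hc₂)
    e₁ e₂ h₁ h₂
  have e : algebraMap Kb (FN M) (c₁ * c₂ ^ q) * TorsES.normAlong (heckeAlphaBar Kb M q) f = u := by
    rw [hN, normRed_aux hc₁ hc₂]
  refine ⟨by rw [e]; exact hu, ?_⟩
  rw [bigRed_congr π (by rw [e]) _ hu, hred]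
  rfl

/-- `NormRedB` -/
theorem normRedB : NormRedB hqM π hπ := by
  intro f c₁ c₂ h₁ h₂ ha hb
  have hc₁ := ne_zero_of_red_ne_zero _ h₁ ha
  have hc₂ := ne_zero_of_red_ne_zero _ h₂ hb
  have e₁ : f = algebraMap Kb (FN (M * q)) c₁⁻¹ * (algebraMap Kb (FN (M * q)) c₁ * f) := by
    rw [← mul_assoc, ← map_mul, inv_mul_cancel₀ hc₁, map_one, one_mul]
  have e₂ : f = algebraMap Kb (FN (M * q)) c₂⁻¹ * (algebraMap Kb (FN (M * q)) c₂ * f) := by
    rw [← mul_assoc, ← map_mul, inv_mul_cancel₀ hc₂, map_one, one_mul]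
  obtain ⟨-, ⟨u, hu, hN, hred⟩⟩ := twoRed_norm_red hqM π hπ (inv_ne_zero hc₁) (inv_ne_zero hc₂)
    e₁ e₂ h₁ h₂
  have e : algebraMap Kb (FN M) (c₂ * c₁ ^ q) * TorsES.normAlong (heckeBetaBar Kb M q) f = u := by
    rw [hN, normRed_aux hc₂ hc₁]
  refine ⟨by rw [e]; exact hu, ?_⟩
  rw [bigRed_congr π (by rw [e]) _ hu, hred]
  rfl

end NormRed

section Cast

variable {M q : ℕ} [NeZero M] [hq : Fact q.Prime] (hqM : ¬ q ∣ M)
variable (A : ValuationSubring Kb) [CharP (ResidueField A) q] [IsAlgClosed (ResidueField A)]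

include hqM in
/-- `steinKum` at a level `N'` which is only propositionally equal to `M * q`. -/
theorem steinKum_cast {N' : ℕ} (hN' : N' = M * q) (h49 : 4 ∣ M ∨ 9 ∣ M) (hA : A.LiesOverPrime q)
    {p : ℕ} (hp : p.Prime) (hpq : p ≠ q) (e : ℕ) {σ : GQ} (hσ : A.IsFrobeniusAt σ q)
    {D : Divisor.degZero (K := Kb) (F := FN N')} {f : FN N'}
    (hf : TorsES.IsDiv ((p ^ e : ℕ) : ℤ) (D : Divisor Kb (FN N')) f)
    {f' : FN (M * q)} (hff : (f' : LaurentSeries Kb) = (f : LaurentSeries Kb)) {h₁ h₂ : FN M}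
    (e₁ : TorsES.normAlong (heckeAlphaBar Kb M q) f' = h₁ ^ (p ^ e))
    (e₂ : TorsES.normAlong (heckeBetaBar Kb M q) f' = h₂ ^ (p ^ e)) :
    σ • σ • σ • σ • (Pic0.mk D : JZero N') - (q ^ 2 + 1) • σ • σ • (Pic0.mk D : JZero N')
      + q ^ 2 • (Pic0.mk D : JZero N') = 0 := by
  subst hN'
  obtain rfl : f' = f := Subtype.ext hff
  exact steinKum hqM A h49 hA (normRedA hqM _ _) (normRedB hqM _ _) hp hpq e hσ hf e₁ e₂

end Cast

section Desc

/-- **[T35-NORMBC]**, the statement (Laurent series form). -/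
def NormBC (M₁ c q : ℕ) [NeZero M₁] [NeZero c] [NeZero q] : Prop :=
  ∀ (f : FN (M₁ * q)) (g : FN (M₁ * c * q)),
    (g : LaurentSeries Kb) = qExpand Kb c (f : LaurentSeries Kb) →
    ((TorsES.normAlong (heckeAlphaBar Kb (M₁ * c) q) g : FN (M₁ * c)) : LaurentSeries Kb) =
      qExpand Kb c ((TorsES.normAlong (heckeAlphaBar Kb M₁ q) f : FN M₁) : LaurentSeries Kb) ∧
    ((TorsES.normAlong (heckeBetaBar Kb (M₁ * c) q) g : FN (M₁ * c)) : LaurentSeries Kb) =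
      qExpand Kb c ((TorsES.normAlong (heckeBetaBar Kb M₁ q) f : FN M₁) : LaurentSeries Kb)

theorem coe_pow_FN {N : ℕ} (h : FN N) (m : ℕ) :
    ((h ^ m : FN N) : LaurentSeries Kb) = (h : LaurentSeries Kb) ^ m := rfl

/-- **(STEINGEO)** from [T35-NORMBC]. -/
theorem steinGeo_of_normBC (M₁ q p : ℕ) [NeZero M₁] [NeZero q] (hq : q.Prime) (hp : p.Prime)
    (hqp : q ≠ p) (hqM₁ : ¬ q ∣ M₁) (hBC : NormBC M₁ (aux q) q) : SteinGeo M₁ q p := by
  intro A hA σ hσ y hy hpA hpB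
  haveI : Fact q.Prime := ⟨hq⟩
  haveI : IsAlgClosed (ResidueField A) := GalEq.isAlgClosed_residueField A
  haveI : CharP (ResidueField A) q := GalEq.charP_residueField hq hA
  have hqM : ¬ q ∣ M₁ * aux q := not_dvd_mul_aux hq hqM₁
  have h49 : 4 ∣ M₁ * aux q ∨ 9 ∣ M₁ * aux q := by
    rcases aux_eq q with h | h <;> rw [h] <;> simp
  obtain ⟨n, hn⟩ := hy
  obtain ⟨D, rfl⟩ := Pic0.mk_surjective y
  obtain ⟨f, hf⟩ := TorsES.exists_isDiv_of_nsmul_eq_zero hn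
  obtain ⟨h₁, -, e₁⟩ := exists_normAlong_eq_of_pushPic0_eq_zero _ _ _ _ (RB.isSepParam_jF M₁)
    (pow_ne_zero n hp.ne_zero) hf hpA
  obtain ⟨h₂, -, e₂⟩ := exists_normAlong_eq_of_pushPic0_eq_zero _ _ _ _ (RB.isSepParam_jF M₁)
    (pow_ne_zero n hp.ne_zero) hf hpB
  have hB := heckeInputsAlong' (M₁ * q) (aux q)
  haveI := hB.snd.snd.fst
  have hβf := hf.pullbackAlong (heckeBetaBar Kb (M₁ * q) (aux q)) hB.snd.fst
  have hN' : M₁ * q * aux q = M₁ * aux q * q := by ring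
  let f' : FN (M₁ * aux q * q) :=
    ⟨((heckeBetaBar Kb (M₁ * q) (aux q) f : FN (M₁ * q * aux q)) : LaurentSeries Kb),
      hN' ▸ (heckeBetaBar Kb (M₁ * q) (aux q) f).2⟩
  have hf' : (f' : LaurentSeries Kb) = qExpand Kb (aux q) (f : LaurentSeries Kb) :=
    coe_heckeBetaBar (M₁ * q) (aux q) f
  obtain ⟨bc1, bc2⟩ := hBC f f' hf'
  have E₁ : TorsES.normAlong (heckeAlphaBar Kb (M₁ * aux q) q) f' =
      (heckeBetaBar Kb M₁ (aux q) h₁) ^ (p ^ n) := by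
    apply Subtype.ext
    rw [bc1, e₁, coe_pow_FN, coe_pow_FN, map_pow, coe_heckeBetaBar]
  have E₂ : TorsES.normAlong (heckeBetaBar Kb (M₁ * aux q) q) f' =
      (heckeBetaBar Kb M₁ (aux q) h₂) ^ (p ^ n) := by
    apply Subtype.ext
    rw [bc2, e₂, coe_pow_FN, coe_pow_FN, map_pow, coe_heckeBetaBar]
  have key := steinKum_cast hqM A hN' h49 hA hp hqp.symm n hσ
    (D := pullDegZero (heckeBetaBar Kb (M₁ * q) (aux q)) hB.snd.fst hB.snd.snd.snd.snd.1 D)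
    hβf (f' := f') rfl E₁ E₂
  have t1 : ∀ z : JZero (M₁ * q), p ^ n • z = 0 → p ^ n • (σ • z) = 0 := fun z hz => by
    rw [smul_comm (p ^ n) σ z, hz, smul_zero]
  refine eq_zero_of_Bstar_eq_zero (M₁ * q) (aux q) (aux_eq q) hp.ne_zero _ ⟨n, ?_⟩ ?_
  · rw [nsmul_add, nsmul_sub, nsmul_left_comm, nsmul_left_comm (Pic0.mk D) (q ^ 2) (p ^ n), hn,
      t1 _ (t1 _ hn), t1 _ (t1 _ (t1 _ (t1 _ hn)))]
    simp
  · have hBs : Bstar (M₁ * q) (aux q) (heckeInputsAlong' (M₁ * q) (aux q)) (Pic0.mk D) =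
        Pic0.mk (pullDegZero (heckeBetaBar Kb (M₁ * q) (aux q)) hB.snd.fst
          hB.snd.snd.snd.snd.1 D) := rfl
    rw [map_add, map_sub, map_nsmul, map_nsmul]
    simp only [Bstar_smul]
    rw [hBs]
    exact key

end Desc

end Fermat.Agent.SS
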