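import Fermat.Agent.S22

/-!
# SS / TOP-35, leaves [T35-IOTA], [T35-INT]
-/

set_option autoImplicit false

namespace Fermat.Agent.SS

/-- [T35-IOTA] a ring homomorphism from a subring of `ℂ`, integral over `ℤ`, to a domain of
characteristic zero is injective. -/
theorem injective_of_integral' {R : Subring ℂ} (hR : ∀ x ∈ R, IsIntegral ℤ x) {O : Type*}
    [CommRing O] [IsDomain O] [CharZero O] (ι : R →+* O) : Function.Injective ι := by
  rw [injective_iff_map_eq_zero]
  intro x hx
  by_contra hx0
  have hxC : (x : ℂ) ≠ 0 := fun h => hx0 (Subtype.ext h)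
  have hintC : IsIntegral ℤ (x : ℂ) := hR x x.2
  have h0 : (minpoly ℤ (x : ℂ)).coeff 0 ≠ 0 := by
    have h1 := minpoly.coeff_zero_ne_zero (A := ℚ) hintC.tower_top hxC
    rw [minpoly.isIntegrallyClosed_eq_field_fractions' ℚ hintC, Polynomial.coeff_map] at h1
    intro h
    apply h1
    rw [h, map_zero]
  have h2 : Polynomial.aeval x (minpoly ℤ (x : ℂ)) = 0 := by
    apply Subtype.val_injective
    have := Polynomial.aeval_algHom_apply R.subtype.toIntAlgHom x (minpoly ℤ (x : ℂ))
    exact this.symm.trans (minpoly.aeval ℤ (x : ℂ))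
  have h1 : Polynomial.aeval (ι x) (minpoly ℤ (x : ℂ)) = 0 := by
    have := Polynomial.aeval_algHom_apply ι.toIntAlgHom x (minpoly ℤ (x : ℂ))
    rw [h2, map_zero] at this
    exact this
  rw [hx, ← Polynomial.coeff_zero_eq_aeval_zero'] at h1
  exact h0 (by simpa using h1)

/-- [T35-INT] the values of a character of the Hecke algebra are algebraic integers (S22). -/
theorem isIntegral_of_mem_range' {N : ℕ} [NeZero N] {S : Set ℕ}
    (χ : CuspForm.heckeAlgebra N 2 S →+* ℂ) : ∀ x ∈ χ.range, IsIntegral ℤ x := by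
  rintro _ ⟨t, rfl⟩
  have : Module.Finite ℤ (CuspForm.heckeAlgebra N 2 S) := Fermat.Agent.S22.result N 2 S
  exact (IsIntegral.of_finite ℤ t).map χ.toIntAlgHom

end Fermat.Agent.SS
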