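import Fermat.Agent.GAL.PC.GlueAbsRaw
import Fermat.Agent.SS.Res

/-!
# SS / TOP-35, leaf [T35-RAW]

From the raw output of the construction of the pseudo-character `t` modulo `p ^ n`
(`GAL.PC.RawOut`) and the "Steinberg relation" `(σ² - 1)(σ² - q²) t₀ = 0` on the `p`-power torsion
we get `q² ((q+1)² - t(σ)²)² t₀ = 0` in `𝕋 / p ^ n`.
-/

set_option autoImplicit false

namespace Fermat.Agent.SS

open Fermat.Agent.GAL.PC

local notation "GQ" => (AlgebraicClosure ℚ ≃ₐ[ℚ] AlgebraicClosure ℚ)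

theorem rawOut_stein {p n : ℕ} {J : Type*} [AddCommGroup J] [DistribMulAction GQ J]
    {T : ℕ → Module.End ℤ J} {𝕋 : Type*} [CommRing 𝕋] {a : ℕ → 𝕋}
    {t : GQ → 𝕋 ⧸ Ideal.span {((p : 𝕋)) ^ n}} (h : RawOut p n T a t) (σ : GQ) (q : ℕ)
    (hσ : CycEq p σ q) (t₀ : MvPolynomial ℕ ℤ)
    (hst : ∀ f : MvPolynomial ℕ ℤ →+* Module.End ℤ J, (∀ ℓ, f (MvPolynomial.X ℓ) = T ℓ) →
      ∀ x : J, (∃ k : ℕ, p ^ k • x = 0) →
        σ • σ • σ • σ • f t₀ x - (q ^ 2 + 1) • σ • σ • f t₀ x + q ^ 2 • f t₀ x = 0) :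
    (q : 𝕋 ⧸ Ideal.span {((p : 𝕋)) ^ n}) ^ 2 *
      (((q : 𝕋 ⧸ Ideal.span {((p : 𝕋)) ^ n}) + 1) ^ 2 - t σ ^ 2) ^ 2 *
        Ideal.Quotient.mk _ (MvPolynomial.aeval a t₀) = 0 := by
  obtain ⟨f, M, P, hf, hMp, hMG, hMH, hcomm, htP, hspec, htr⟩ := h
  -- the endomorphism ring of `M`
  let Mz : Submodule ℤ J := AddSubgroup.toIntSubmodule M
  let sJ : Module.End ℤ J := (DistribSMul.toAddMonoidHom J σ).toIntLinearMap
  have hsJ : ∀ x, sJ x = σ • x := fun _ => rfl
  let s : Module.End ℤ Mz := sJ.restrict (fun x hx => hMG σ x hx)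
  let R : MvPolynomial ℕ ℤ → Module.End ℤ Mz := fun g => (f g).restrict (fun x hx => hMH g x hx)
  have hs : ∀ x : Mz, ((s x : Mz) : J) = σ • (x : J) := fun _ => rfl
  have hR : ∀ g (x : Mz), ((R g x : Mz) : J) = f g (x : J) := fun _ _ => rfl
  have hsR : ∀ g, Commute s (R g) := by
    intro g
    refine LinearMap.ext fun x => Subtype.ext ?_
    show σ • f g (x : J) = f g (σ • (x : J))
    exact hcomm σ g x
  have hRR : ∀ g g', Commute (R g) (R g') := by
    intro g g'
    refine LinearMap.ext fun x => Subtype.ext ?_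
    show f g (f g' (x : J)) = f g' (f g (x : J))
    rw [← Module.End.mul_apply, ← Module.End.mul_apply, ← map_mul, ← map_mul, mul_comm]
  have h1 : s ^ 2 - R (P σ) * s + ((q : ℤ) : Module.End ℤ Mz) = 0 := by
    refine LinearMap.ext fun x => Subtype.ext ?_
    have h2 := hspec σ q hσ (σ • (x : J)) (hMG σ x x.2)
    rw [inv_smul_smul] at h2
    show σ • σ • (x : J) - f (P σ) (σ • (x : J)) + (((q : ℤ) : Module.End ℤ Mz) x : Mz) = 0
    rw [← h2, Module.End.intCast_apply]
    simp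
  have h2 : (s ^ 2 - 1) * (s ^ 2 - ((q : ℤ) : Module.End ℤ Mz) ^ 2) * R t₀ = 0 := by
    refine LinearMap.ext fun x => Subtype.ext ?_
    have h3 := hst f hf (x : J) (hMp x x.2)
    set y : Mz := R t₀ x with hy
    have hy' : (y : J) = f t₀ (x : J) := rfl
    rw [← hy'] at h3
    show (((((s ^ 2 - 1) * (s ^ 2 - ((q : ℤ) : Module.End ℤ Mz) ^ 2) : Module.End ℤ Mz)) y : Mz) : J) = 0
    have e1 : (s ^ 2 - ((q : ℤ) : Module.End ℤ Mz) ^ 2) y = s (s y) - (q : ℤ) • (q : ℤ) • y := by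
      rw [LinearMap.sub_apply, pow_two, pow_two, Module.End.mul_apply, Module.End.mul_apply,
        Module.End.intCast_apply, Module.End.intCast_apply]
    rw [Module.End.mul_apply, e1, LinearMap.sub_apply, pow_two, Module.End.mul_apply,
      Module.End.one_apply, map_sub, map_sub, map_zsmul, map_zsmul, map_zsmul, map_zsmul]
    simp only [Submodule.coe_sub, Submodule.coe_smul, hs]
    rw [← h3]
    simp only [natCast_zsmul]
    generalize σ • σ • σ • σ • (y : J) = a4
    generalize σ • σ • (y : J) = a2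
    generalize (y : J) = a0
    module
  have key := res_identity_of_commute s (R (P σ)) (R t₀) (q : ℤ) (hsR _) (hsR _) (hRR _ _) h1 h2
  set Q : MvPolynomial ℕ ℤ := (q : MvPolynomial ℕ ℤ) ^ 2 *
    (((q : MvPolynomial ℕ ℤ) + 1) ^ 2 - (P σ) ^ 2) ^ 2 * t₀ with hQdef
  have hRmul : ∀ g g', R (g * g') = R g * R g' := by
    intro g g'
    refine LinearMap.ext fun x => Subtype.ext ?_
    show f (g * g') (x : J) = f g (f g' (x : J))
    rw [map_mul, Module.End.mul_apply]
  have hRsub : ∀ g g', R (g - g') = R g - R g' := by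
    intro g g'
    refine LinearMap.ext fun x => Subtype.ext ?_
    show f (g - g') (x : J) = f g (x : J) - f g' (x : J)
    rw [map_sub, LinearMap.sub_apply]
  have hRadd : ∀ g g', R (g + g') = R g + R g' := by
    intro g g'
    refine LinearMap.ext fun x => Subtype.ext ?_
    show f (g + g') (x : J) = f g (x : J) + f g' (x : J)
    rw [map_add, LinearMap.add_apply]
  have hRone : R 1 = 1 := by
    refine LinearMap.ext fun x => Subtype.ext ?_
    show f 1 (x : J) = (x : J)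
    rw [map_one, Module.End.one_apply]
  have hRq : R (q : MvPolynomial ℕ ℤ) = ((q : ℤ) : Module.End ℤ Mz) := by
    refine LinearMap.ext fun x => Subtype.ext ?_
    show f (q : MvPolynomial ℕ ℤ) (x : J) = ((((q : ℤ) : Module.End ℤ Mz) x : Mz) : J)
    rw [map_natCast, Module.End.intCast_apply, Module.End.natCast_apply]
    simp
  have hRQ : R Q = 0 := by
    rw [hQdef, hRmul, hRmul, pow_two, pow_two, pow_two, pow_two, hRmul, hRmul, hRsub, hRmul, hRmul,
      hRadd, hRone, hRq, ← key]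
    simp only [pow_two]
  have hQ : ∀ x ∈ M, f Q x = 0 := by
    intro x hx
    have := congrArg (fun g : Module.End ℤ Mz => ((g ⟨x, hx⟩ : Mz) : J)) hRQ
    exact this
  have h5 := Ideal.Quotient.eq_zero_iff_mem.2 (htr Q hQ)
  rw [htP σ, ← h5, hQdef]
  simp only [map_mul, map_pow, map_sub, map_add, map_one, map_natCast]

end Fermat.Agent.SS
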