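import Fermat.Agent.SS.Abs.Main

/-!
# SS / TOP-35 : [T35-TORIC2], abstract part

`g` a semilinear automorphism compatible with the nodal datum, inducing `Φ` on `Fb`.  If
`m D = div f` and the (scaled) reductions `a`, `b` of `f` on the two components are such that
`Φ a / a` and `Φ b / b` are `m`-th powers, then `g y - y` is toric, `y = [D]`.
-/

set_option autoImplicit false

open AlgebraicCurve

namespace Fermat.Agent.SS

open Fermat.Agent.RED Fermat.Agent.S24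

section Aux

variable {K F k Fb : Type*} [Field K] [Field F] [Algebra K F] [Field k] [Field Fb] [Algebra k Fb]

/-- `g f / f` is a unit with reduction `κ Φ(a) / a`, `a` the scaled reduction of `f`. -/
theorem RedData_smul_div_gen (R : RedData K F k Fb) (g : SemilinearAut K F)
    (Φ : SemilinearAut k Fb) (hmem : ∀ u : R.O, g • (u : F) ∈ R.O)
    (hred : ∀ u : R.O, R.red ⟨g • (u : F), hmem u⟩ = Φ • R.red u)
    (hunit : ∀ c : K, c ≠ 0 → algebraMap K F (SemilinearAut.baseAut g c * c⁻¹) ∈ R.O)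
    {f : F} {c : K} (hc : algebraMap K F c * f ∈ R.O) (hcred : R.red ⟨_, hc⟩ ≠ 0) :
    ∃ (h : (g • f) * f⁻¹ ∈ R.O) (κ : k), κ ≠ 0 ∧
      R.red ⟨_, h⟩ = algebraMap k Fb κ * ((Φ • R.red ⟨_, hc⟩) * (R.red ⟨_, hc⟩)⁻¹) := by
  have hc0 : c ≠ 0 := by
    rintro rfl
    apply hcred
    have : (⟨algebraMap K F 0 * f, hc⟩ : R.O) = 0 := Subtype.ext (by simp)
    rw [this, map_zero]
  have hf : f ≠ 0 := by
    rintro rfl
    apply hcred
    have : (⟨algebraMap K F c * 0, hc⟩ : R.O) = 0 := Subtype.ext (by simp)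
    rw [this, map_zero]
  set u : R.O := ⟨algebraMap K F c * f, hc⟩ with hu
  set gc := SemilinearAut.baseAut g c with hgc
  have hgc0 : gc ≠ 0 := by
    rw [hgc, Ne, map_eq_zero_iff _ (SemilinearAut.baseAut g).injective]
    exact hc0
  have hd' : algebraMap K F (gc * c⁻¹) ∈ R.O := hunit c hc0
  have hd : algebraMap K F (c * gc⁻¹) ∈ R.O := by
    have := hunit c⁻¹ (inv_ne_zero hc0)
    rwa [map_inv₀, inv_inv, mul_comm] at this
  have hdd : (⟨_, hd⟩ : R.O) * ⟨_, hd'⟩ = 1 := by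
    apply Subtype.ext
    show algebraMap K F (c * gc⁻¹) * algebraMap K F (gc * c⁻¹) = 1
    rw [← map_mul]
    have : c * gc⁻¹ * (gc * c⁻¹) = 1 := by field_simp
    rw [this, map_one]
  obtain ⟨a, ha⟩ := R.red_const _ hd
  have ha0 : a ≠ 0 := by
    rintro rfl
    have := congrArg R.red hdd
    rw [map_mul, ha, map_zero, zero_mul, map_one] at this
    exact zero_ne_one this
  let E : R.O := ⟨g • (u : F), hmem u⟩ * ⟨(u : F)⁻¹, R.inv_mem_of_red_ne_zero hcred⟩ * ⟨_, hd⟩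
  have hE : (E : F) = (g • f) * f⁻¹ := by
    show g • (algebraMap K F c * f) * (algebraMap K F c * f)⁻¹ * algebraMap K F (c * gc⁻¹) = _
    rw [smul_mul', SemilinearAut.smul_algebraMap, map_mul, map_inv₀]
    have h1 : algebraMap K F c ≠ 0 := by rwa [Ne, map_eq_zero]
    have h2 : algebraMap K F gc ≠ 0 := by rwa [Ne, map_eq_zero]
    field_simp
    exact mul_comm _ _
  have hEred : R.red E = algebraMap k Fb a * ((Φ • R.red u) * (R.red u)⁻¹) := by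
    show R.red (_ * _ * _) = _
    rw [map_mul, map_mul, hred u, R.red_inv hcred, ha, mul_comm]
  refine ⟨hE ▸ E.2, a, ha0, ?_⟩
  rw [← hEred]
  exact congrArg R.red (Subtype.ext hE.symm)

end Aux

variable {K F k Fb : Type*} [Field K] [Field F] [Algebra K F] [Field k] [Field Fb] [Algebra k Fb]
  [IsAlgClosed K] [IsAlgClosed k]

variable {T : TwoRed K F k Fb} (𝒩 : NodalData T)

/-- **[T35-TORIC2]**, abstract form. -/
theorem isToric_smul_sub_gen {m : ℕ} (hm : m ≠ 0) {g : SemilinearAut K F}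
    {Φ : SemilinearAut k Fb} (hg : IsCompat 𝒩 g Φ) {D : Divisor.degZero (K := K) (F := F)} {f : F}
    (hfD : ∀ v : Place K F, (m : ℤ) * (D : Divisor K F) v = v.ord f)
    {c₁ c₂ : K} (h₁ : algebraMap K F c₁ * f ∈ T.R₁.O) (h₂ : algebraMap K F c₂ * f ∈ T.R₂.O)
    (ha : T.R₁.red ⟨_, h₁⟩ ≠ 0) (hb : T.R₂.red ⟨_, h₂⟩ ≠ 0) {z₁ z₂ : Fb}
    (hz₁ : Φ • T.R₁.red ⟨_, h₁⟩ = z₁ ^ m * T.R₁.red ⟨_, h₁⟩)
    (hz₂ : Φ • T.R₂.red ⟨_, h₂⟩ = z₂ ^ m * T.R₂.red ⟨_, h₂⟩) :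
    IsToric T m (g • Pic0.mk D - Pic0.mk D) := by
  have hf : f ≠ 0 := by
    rintro rfl
    apply ha
    have : (⟨algebraMap K F c₁ * 0, h₁⟩ : T.R₁.O) = 0 := Subtype.ext (by simp)
    rw [this, map_zero]
  obtain ⟨k₁, a₁, ha₁, hr₁⟩ := RedData_smul_div_gen T.R₁ g Φ hg.mem₁ hg.red₁
    (fun c hc => hg.unit c hc) h₁ ha
  obtain ⟨k₂, a₂, ha₂, hr₂⟩ := RedData_smul_div_gen T.R₂ g Φ hg.mem₂ hg.red₂
    (fun c hc => (T.const_mem _).1 (hg.unit c hc)) h₂ hb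
  rw [hz₁, mul_assoc, mul_inv_cancel₀ ha, mul_one] at hr₁
  rw [hz₂, mul_assoc, mul_inv_cancel₀ hb, mul_one] at hr₂
  have hz₁0 : z₁ ≠ 0 := by
    rintro rfl
    rw [zero_pow hm, zero_mul, smul_eq_zero_iff_eq] at hz₁
    exact ha hz₁
  have hz₂0 : z₂ ≠ 0 := by
    rintro rfl
    rw [zero_pow hm, zero_mul, smul_eq_zero_iff_eq] at hz₂
    exact hb hz₂
  obtain ⟨b₁, hb₁⟩ := IsAlgClosed.exists_pow_nat_eq a₁ (Nat.pos_of_ne_zero hm)
  obtain ⟨b₂, hb₂⟩ := IsAlgClosed.exists_pow_nat_eq a₂ (Nat.pos_of_ne_zero hm)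
  have hb₁0 : b₁ ≠ 0 := by
    rintro rfl
    rw [zero_pow hm] at hb₁
    exact ha₁ hb₁.symm
  have hb₂0 : b₂ ≠ 0 := by
    rintro rfl
    rw [zero_pow hm] at hb₂
    exact ha₂ hb₂.symm
  refine ⟨SemilinearAut.degZeroSMulHom g D - D, ⟨(g • f) * f⁻¹, k₁, k₂⟩,
    algebraMap k Fb b₁ * z₁, algebraMap k Fb b₂ * z₂, ?_, ?_, ?_, ?_, ?_⟩
  · rw [SemilinearAut.pic0_smul_mk, pic0_mk_sub]
  · intro v
    show (m : ℤ) * (g • (D : Divisor K F) - (D : Divisor K F)) v = v.ord ((g • f) * f⁻¹)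
    have hgf : g • f ≠ 0 := by
      rw [Ne, smul_eq_zero_iff_eq]
      exact hf
    have key : v.ord (g • f) = (g⁻¹ • v).ord f := by
      have := SemilinearAut.ord_smul g (g⁻¹ • v) f
      rwa [smul_inv_smul] at this
    rw [Finsupp.sub_apply, SemilinearAut.divisor_smul_apply, mul_sub, hfD, hfD,
      v.ord_mul hgf (inv_ne_zero hf), v.ord_inv, key, sub_eq_add_neg]
  · exact mul_ne_zero (by rwa [Ne, map_eq_zero]) hz₁0
  · exact mul_ne_zero (by rwa [Ne, map_eq_zero]) hz₂0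
  · apply Prod.ext
    · show T.R₁.red ⟨_, k₁⟩ = (algebraMap k Fb b₁ * z₁) ^ m
      rw [hr₁, mul_pow, ← map_pow, hb₁]
    · show T.R₂.red ⟨_, k₂⟩ = (algebraMap k Fb b₂ * z₂) ^ m
      rw [hr₂, mul_pow, ← map_pow, hb₂]

end Fermat.Agent.SS
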